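/-
P-S44/S40 (block C4'' + C3-AS toolbox, helper57): the abstract DEPTH CALCULUS on Cech cocycles.

`Basic`: the small elements of a valuation ring, the binomial lemma (P) for a prime exponent,
the one-step normalisation (R) and the sharp uniqueness (U') of normal-form coordinates, all on top
of the landed `S33x/Cech/Coord` (relation `Rel`, (E) `exists_comb`, `normalForm_unique`).
-/
import Fermat.Agent.S33x.Cech.Coord

set_option autoImplicit false
set_option linter.unusedSectionVars false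
set_option linter.overlappingInstances false

namespace Fermat.Agent.S40x.Depth

open IsLocalRing Fermat.Agent.S33x.Cech Fermat.Agent.S33x.Cech.Coord

/-! ### Small elements -/

/-- the nonzero elements of the maximal ideal (the same set as `S33x.Cech.InstAbs.smA`) -/
def small (A : Type*) [CommRing A] [IsLocalRing A] : Set A := {ε | ε ∈ maximalIdeal A ∧ ε ≠ 0}

section Small

variable {A : Type*} [CommRing A] [IsDomain A] [ValuationRing A] [IsLocalRing A]

theorem small_ne_zero {ε : A} (h : ε ∈ small A) : ε ≠ 0 := h.2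

theorem small_not_isUnit {ε : A} (h : ε ∈ small A) : ¬ IsUnit ε :=
  (IsLocalRing.mem_maximalIdeal ε).mp h.1

theorem small_of_not_isUnit {ε : A} (h0 : ε ≠ 0) (h : ¬ IsUnit ε) : ε ∈ small A :=
  ⟨(IsLocalRing.mem_maximalIdeal ε).mpr h, h0⟩

theorem tot (x y : A) : x ∣ y ∨ y ∣ x := ValuationRing.dvd_total x y

theorem small_gcd : ∀ ε ∈ small A, ∀ ε' ∈ small A, ∃ δ ∈ small A, δ ∣ ε ∧ δ ∣ ε' := by
  intro ε hε ε' hε'
  rcases ValuationRing.dvd_total ε ε' with h | h
  · exact ⟨ε, hε, dvd_rfl, h⟩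
  · exact ⟨ε', hε', h, dvd_rfl⟩

/-- a nonzero multiple of a small element is small -/
theorem small_of_dvd {ε x : A} (hε : ε ∈ small A) (h : ε ∣ x) (hx : x ≠ 0) : x ∈ small A := by
  obtain ⟨y, rfl⟩ := h
  exact ⟨Ideal.mul_mem_right _ _ hε.1, hx⟩

theorem small_mul {ε ε' : A} (hε : ε ∈ small A) (hε' : ε' ∈ small A) : ε * ε' ∈ small A :=
  small_of_dvd hε (Dvd.intro _ rfl) (mul_ne_zero hε.2 hε'.2)

theorem small_pow {ε : A} (hε : ε ∈ small A) {n : ℕ} (hn : n ≠ 0) : ε ^ n ∈ small A :=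
  small_of_dvd hε (dvd_pow_self ε hn) (pow_ne_zero n hε.2)

/-- `1 + δ s` is a unit for `δ` in the maximal ideal -/
theorem isUnit_one_add_mul {δ : A} (hδ : δ ∈ small A) (s : A) : IsUnit (1 + δ * s) := by
  by_contra h
  have h1 : 1 + δ * s ∈ maximalIdeal A := (IsLocalRing.mem_maximalIdeal _).mpr h
  have h2 : δ * s ∈ maximalIdeal A := Ideal.mul_mem_right _ _ hδ.1
  have h3 : (1 : A) ∈ maximalIdeal A := by
    have h4 := Ideal.sub_mem _ h1 h2
    rwa [add_sub_cancel_right] at h4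
  exact (Ideal.ne_top_iff_one _).mp (IsLocalRing.maximalIdeal.isMaximal A).ne_top h3

/-- in a valuation domain, `x ^ n ∣ y ^ n` implies `x ∣ y` (`n ≠ 0`) -/
theorem dvd_of_pow_dvd_pow {x y : A} {n : ℕ} (hn : n ≠ 0) (h : x ^ n ∣ y ^ n) : x ∣ y := by
  rcases tot x y with h1 | ⟨z, rfl⟩
  · exact h1
  · by_cases hy : y = 0
    · subst hy; simp
    · rw [mul_pow] at h
      have h2 : IsUnit (z ^ n) := by
        obtain ⟨c, hc⟩ := h
        have h3 : y ^ n * 1 = y ^ n * (z ^ n * c) := by rw [mul_one, ← mul_assoc]; exact hc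
        have h4 := mul_left_cancel₀ (pow_ne_zero n hy) h3
        exact IsUnit.of_mul_eq_one c h4.symm
      have h5 : IsUnit z := (isUnit_pow_iff hn).mp h2
      obtain ⟨u, rfl⟩ := h5
      exact ⟨(↑u⁻¹ : A), by simp⟩

/-- a finite nonempty family has a member dividing all the others -/
theorem exists_dvd_all {ι : Type*} [Finite ι] [Nonempty ι] (f : ι → A) : ∃ i0, ∀ i, f i0 ∣ f i := by
  classical
  have : Fintype ι := Fintype.ofFinite ι
  have key : ∀ s : Finset ι, s.Nonempty → ∃ i0 ∈ s, ∀ i ∈ s, f i0 ∣ f i := by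
    intro s hs
    induction hs using Finset.Nonempty.cons_induction with
    | singleton j => exact ⟨j, Finset.mem_singleton_self j, fun i hi => by
        rw [Finset.mem_singleton.mp hi]⟩
    | cons j s hj hs ih =>
      obtain ⟨i0, hi0, h0⟩ := ih
      rcases tot (f i0) (f j) with h | h
      · refine ⟨i0, Finset.mem_cons.mpr (Or.inr hi0), fun i hi => ?_⟩
        rcases Finset.mem_cons.mp hi with rfl | hi
        · exact h
        · exact h0 i hi
      · refine ⟨j, Finset.mem_cons_self j s, fun i hi => ?_⟩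
        rcases Finset.mem_cons.mp hi with rfl | hi
        · exact dvd_rfl
        · exact h.trans (h0 i hi)
  obtain ⟨i0, -, h0⟩ := key Finset.univ Finset.univ_nonempty
  exact ⟨i0, fun i => h0 i (Finset.mem_univ i)⟩

end Small

/-! ### (P) the binomial lemma -/

section Binomial

variable {R : Type*} [CommRing R]

/-- `(1 + y) ^ n = 1 + n y + y ^ 2 r` -/
theorem exists_one_add_pow (y : R) (n : ℕ) : ∃ r : R, (1 + y) ^ n = 1 + n * y + y ^ 2 * r := by
  induction n with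
  | zero => exact ⟨0, by simp⟩
  | succ n ih =>
    obtain ⟨r, hr⟩ := ih
    refine ⟨r + n + y * r, ?_⟩
    rw [pow_succ, hr]
    push_cast
    ring

/-- `(1 + y) ^ ℓ = 1 + ℓ y + ℓ y ^ 2 r + y ^ ℓ` for a prime `ℓ` -/
theorem exists_one_add_pow_prime {ℓ : ℕ} (hℓ : ℓ.Prime) (y : R) :
    ∃ r : R, (1 + y) ^ ℓ = 1 + ℓ * y + ℓ * y ^ 2 * r + y ^ ℓ := by
  obtain ⟨k, rfl⟩ : ∃ k, ℓ = k + 2 := ⟨ℓ - 2, by have := hℓ.two_le; omega⟩
  have hdvd : ∀ m, m < k → (k + 2) ∣ (k + 2).choose (m + 2) := fun m hm =>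
    hℓ.dvd_choose_self (by omega) (by omega)
  choose! d hd using hdvd
  refine ⟨∑ m ∈ Finset.range k, y ^ m * (d m : R), ?_⟩
  rw [add_comm (1 : R) y, add_pow]
  simp only [one_pow, mul_one]
  rw [Finset.sum_range_succ, Finset.sum_range_succ', Finset.sum_range_succ']
  simp only [Nat.choose_self, Nat.choose_zero_right, Nat.choose_one_right, pow_zero, pow_one,
    Nat.cast_one, mul_one, zero_add]
  have hsum : ∑ m ∈ Finset.range k, y ^ (m + 1 + 1) * (((k + 2).choose (m + 1 + 1) : ℕ) : R)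
      = ((k + 2 : ℕ) : R) * y ^ 2 * ∑ m ∈ Finset.range k, y ^ m * (d m : R) := by
    rw [Finset.mul_sum]
    refine Finset.sum_congr rfl fun m hm => ?_
    rw [show m + 1 + 1 = m + 2 from rfl, hd m (Finset.mem_range.mp hm)]
    push_cast
    ring
  rw [hsum]
  push_cast
  ring

end Binomial

/-! ### (P) in algebra form: the `ℓ`-th power of `1 + w z` -/

section PowPrime

variable {A : Type*} [CommRing A] {B : Type*} [CommRing B] [Algebra A B] {ℓ : ℕ}

/-- **(P)(a), deep case** `ℓ ε ∣ w ^ (ℓ - 1)`: `(1 + w z) ^ ℓ = 1 + ℓ w (z + δ z₂)`. -/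
theorem pow_prime_of_deep (hℓ : ℓ.Prime) {w ε δ : A} (hdeep : (ℓ : A) * ε ∣ w ^ (ℓ - 1))
    (hδw : δ ∣ w) (hδε : δ ∣ ε) (z : B) :
    ∃ z2 : B, (1 + algebraMap A B w * z) ^ ℓ
      = 1 + algebraMap A B ((ℓ : A) * w) * (z + algebraMap A B δ * z2) := by
  obtain ⟨r, hr⟩ := exists_one_add_pow_prime hℓ (algebraMap A B w * z)
  obtain ⟨y, hy⟩ := hdeep
  obtain ⟨w1, rfl⟩ := hδw
  obtain ⟨ε1, rfl⟩ := hδε
  have hwl : (δ * w1) ^ ℓ = (δ * w1) * ((ℓ : A) * (δ * ε1) * y) := by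
    rw [← hy, ← pow_succ']
    congr 1
    have := hℓ.pos
    omega
  have hB : (algebraMap A B (δ * w1)) ^ ℓ = algebraMap A B (δ * w1) *
      ((ℓ : B) * (algebraMap A B δ * algebraMap A B ε1) * algebraMap A B y) := by
    rw [← map_pow, hwl]
    simp only [map_mul, map_natCast]
  refine ⟨algebraMap A B w1 * z ^ 2 * r + algebraMap A B (ε1 * y) * z ^ ℓ, ?_⟩
  rw [hr, mul_pow (algebraMap A B (δ * w1)) z ℓ, hB]
  simp only [map_mul, map_natCast]
  ring

/-- **(P)(b), shallow case** `w ^ (ℓ - 1) ε ∣ ℓ`: `(1 + w z) ^ ℓ = 1 + w ^ ℓ (z ^ ℓ + ε z₃)`. -/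
theorem pow_prime_of_shallow (hℓ : ℓ.Prime) {w ε : A} (hsh : w ^ (ℓ - 1) * ε ∣ (ℓ : A)) (z : B) :
    ∃ z3 : B, (1 + algebraMap A B w * z) ^ ℓ
      = 1 + algebraMap A B (w ^ ℓ) * (z ^ ℓ + algebraMap A B ε * z3) := by
  obtain ⟨r, hr⟩ := exists_one_add_pow_prime hℓ (algebraMap A B w * z)
  obtain ⟨y, hy⟩ := hsh
  have hwl : w ^ ℓ = w ^ (ℓ - 1) * w := by
    rw [← pow_succ]
    congr 1
    have := hℓ.pos
    omega
  have hB : (ℓ : B) = algebraMap A B (w ^ (ℓ - 1)) * algebraMap A B ε * algebraMap A B y := by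
    rw [← map_mul, ← map_mul, ← hy, map_natCast]
  have hwl' : (algebraMap A B w) ^ ℓ = algebraMap A B (w ^ (ℓ - 1)) * algebraMap A B w := by
    rw [← map_pow, hwl, map_mul]
  refine ⟨algebraMap A B y * z * (1 + algebraMap A B w * z * r), ?_⟩
  rw [hr, mul_pow (algebraMap A B w) z ℓ, hwl', hwl, map_mul]
  conv_lhs => rw [hB]
  ring

end PowPrime

/-! ### `Rel`: powers, the one-step normalisation (R), the sharp uniqueness (U') -/

section RelLemmas

variable {A : Type*} [CommRing A] {B : Type*} [CommRing B] [Algebra A B]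
variable {Boo B0 : Subalgebra A B} {g : ℕ} {a : Fin g → B}

theorem rel_pow {sm : Set A} (hgcd : ∀ ε ∈ sm, ∀ ε' ∈ sm, ∃ δ ∈ sm, δ ∣ ε ∧ δ ∣ ε')
    {q : A} {u v : B} (h : Rel Boo B0 sm q u v) (n : ℕ) : Rel Boo B0 sm q (u ^ n) (v ^ n) := by
  induction n with
  | zero =>
    obtain ⟨ε, hε, -⟩ := h
    rw [pow_zero, pow_zero]
    exact Rel.refl hε q 1
  | succ n ih =>
    rw [pow_succ, pow_succ]
    exact Rel.mul hgcd ih h

/-- **(R)** one Decomp step: `1 + q (βoo + β0 + ∑ s_i a_i)` is related to `1 + ∑ q s_i a_i`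
modulo `q ^ 2`. -/
theorem rel_one_step {sm : Set A} {δ : A} (hδ : δ ∈ sm) {q : A} (hδq : δ ∣ q) (βoo : Boo)
    (β0 : B0) (s : Fin g → A) :
    Rel Boo B0 sm (q * q) (1 + algebraMap A B q * ((βoo : B) + β0 + comb a s))
      (1 + comb a (q • s)) := by
  refine ⟨δ, hδ, 1, 1 + algebraMap A Boo q * βoo, 1, 1 + algebraMap A B0 q * β0, by simp, ?_,
    by simp, ?_, ?_⟩
  · rw [add_sub_cancel_left]
    exact Dvd.dvd.mul_right (map_dvd (algebraMap A Boo) hδq) _
  · rw [add_sub_cancel_left]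
    exact Dvd.dvd.mul_right (map_dvd (algebraMap A B0) hδq) _
  · refine ⟨-((βoo : B) * β0 + comb a s * ((βoo : B) + β0)
      + algebraMap A B q * comb a s * βoo * β0), ?_⟩
    rw [map_smul, Algebra.smul_def, map_mul]
    push_cast
    ring

end RelLemmas

section Sharp

variable {A : Type*} [CommRing A] [IsDomain A] [ValuationRing A] [IsLocalRing A]
variable {B : Type*} [CommRing B] [Algebra A B]
variable {Boo B0 : Subalgebra A B} {g : ℕ} {a : Fin g → B}

/-- **(U')** sharp uniqueness of the coordinates: two normal forms related modulo `Q` have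
coordinates congruent modulo `Q / θ` for EVERY small `θ`. -/
theorem dvd_mul_sub_of_rel
    (hrk : ∀ x ∈ maximalIdeal A, ∀ c : A, c ≠ 0 → ∃ j : ℕ, c ∣ x ^ j)
    (hsat : ∀ ε ∈ small A, SatData Boo B0 a ε) {ϖ θ Q : A} (hϖ : ϖ ∈ small A)
    (hθ : θ ∈ small A) (hQ : Q ≠ 0) {t t' : Fin g → A} (ht : ∀ i, ϖ ∣ t i)
    (ht' : ∀ i, ϖ ∣ t' i)
    (h : Rel Boo B0 (small A) Q (1 + comb a t) (1 + comb a t')) :
    ∀ i, Q ∣ θ * (t i - t' i) := by
  classical
  obtain ⟨ε, hε, r, r', s, s', h1, h2, h3, h4, h5⟩ := h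
  obtain ⟨δ₁, hδ₁, e1, e2⟩ := small_gcd ε hε ϖ hϖ
  obtain ⟨δ, hδ, f1, f2⟩ := small_gcd δ₁ hδ₁ θ hθ
  have d1 : δ ∣ ϖ := f1.trans e2
  have d2 : δ ∣ ε := f1.trans e1
  have hex : ∃ j : ℕ, Q ∣ δ ^ j := hrk δ hδ.1 Q hQ
  intro i
  rcases Nat.eq_zero_or_eq_succ_pred (Nat.find hex) with h0 | hs
  · have := Nat.find_spec hex
    rw [h0, pow_zero] at this
    exact this.trans (one_dvd _)
  · have hmin : ¬ Q ∣ δ ^ (Nat.find hex).pred := Nat.find_min hex (Nat.pred_lt (by omega))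
    have hk : δ ^ (Nat.find hex).pred ∣ Q := (tot _ _).resolve_left hmin
    have h6 : algebraMap A B δ ^ (Nat.find hex).pred ∣
        (1 + comb a t) * r * s - (1 + comb a t') * r' * s' := by
      rw [← map_pow]
      exact algebraMap_dvd_of_dvd hk h5
    have h7 := normalForm_unique (hsat δ hδ) (Nat.find hex).pred (fun i => d1.trans (ht i))
      (fun i => d1.trans (ht' i)) (algebraMap_dvd_of_dvd d2 h2) (algebraMap_dvd_of_dvd d2 h1)
      (algebraMap_dvd_of_dvd d2 h4) (algebraMap_dvd_of_dvd d2 h3) h6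
    have h8 := Nat.find_spec hex
    rw [hs, pow_succ, mul_comm] at h8
    exact h8.trans (mul_dvd_mul f2 (h7 i))

end Sharp

end Fermat.Agent.S40x.Depth
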