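/-
P-S44/S40 (block C4'' + C3-AS toolbox, helper57): the abstract DEPTH CALCULUS on Cech cocycles.

`Torsion`: over the hypothesis bundle of the landed `S33x/Cech/Coord.exists_charts_of_cyc`
(structure `Core`; no group law, no Galois action, no exact coordinates):

* `Core.exists_leading` (D3): a cocycle of a nonzero class has a LEADING FORM `1 + W b`,
  `b = ∑ τ_i a_i` with some `τ_i = 1`, to every precision;
* `Core.eq_zero_of_deep` (M1): NO DEEP `ℓ`-TORSION: a class killed by `ℓ` having a cocycle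
  `≡ 1 + w z` with `ℓ ε ∣ w ^ (ℓ - 1)` (depth `> 1/(ℓ-1)`) is zero;
* `Core.exists_leading_frob` (N1): the leading form `1 + W b` of a nonzero `ℓ`-torsion class is not
  deep, and if it is shallow (`W ^ (ℓ - 1) ε ∣ ℓ`) then `b ^ ℓ ∈ Boo + B0 + δ B`: the Frobenius of
  the leading class vanishes in `H¹` of the special fibre.
-/
import Fermat.Agent.S40x.Depth.Basic

set_option autoImplicit false
set_option linter.unusedSectionVars false
set_option linter.overlappingInstances false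

namespace Fermat.Agent.S40x.Depth

open IsLocalRing Fermat.Agent.S33x.Cech Fermat.Agent.S33x.Cech.Coord

variable {A : Type*} [CommRing A] [IsDomain A] [ValuationRing A] [IsLocalRing A]
variable {B : Type*} [CommRing B] [Algebra A B]
variable {Boo B0 : Subalgebra A B} {g : ℕ} {a : Fin g → B}
variable {X : Type*} [AddCommGroup X] {Cyc : X → Set B} {ℓ : ℕ}

/-- The hypothesis bundle of `S33x/Cech/Coord.exists_charts_of_cyc` (without group law and Galois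
action), with `sm := small A`, `p := (ℓ : A)` for a prime number `ℓ` in the maximal ideal, and
rank one in the form `hrk` of `S33x/Cech/InstAbs`. -/
structure Core (Boo B0 : Subalgebra A B) (a : Fin g → B) (ℓ : ℕ) (Cyc : X → Set B) : Prop where
  hrk : ∀ x ∈ maximalIdeal A, ∀ c : A, c ≠ 0 → ∃ j : ℕ, c ∣ x ^ j
  hℓ : ℓ.Prime
  hℓm : (ℓ : A) ∈ small A
  hdec : Decomp Boo B0 a
  hsat : ∀ ε ∈ small A, SatData Boo B0 a ε
  hcyc1 : ∀ x, ∀ c ∈ Cyc x, ∃ ε ∈ small A, algebraMap A B ε ∣ c - 1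
  hcyc0 : (1 : B) ∈ Cyc 0
  hcycmul : ∀ x y, ∀ c ∈ Cyc x, ∀ c' ∈ Cyc y, c * c' ∈ Cyc (x + y)
  hcycrel : ∀ x, ∀ c ∈ Cyc x, ∀ c' ∈ Cyc x, Rel Boo B0 (small A) 0 c c'
  hcycinj : ∀ x, x ≠ 0 → ∃ c ∈ Cyc x, ∃ N0 : ℕ, ¬ Rel Boo B0 (small A) ((ℓ : A) ^ N0) c 1

namespace Core

variable (H : Core Boo B0 a ℓ Cyc)
include H

theorem pow_mem {x : X} {c : B} (hc : c ∈ Cyc x) (n : ℕ) : c ^ n ∈ Cyc (n • x) := by
  induction n with
  | zero => rw [pow_zero, zero_smul]; exact H.hcyc0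
  | succ n ih => rw [pow_succ, succ_nsmul]; exact H.hcycmul _ _ _ ih _ hc

theorem exists_pow_dvd {Q : A} (hQ : Q ≠ 0) : ∃ j : ℕ, Q ∣ (ℓ : A) ^ j :=
  H.hrk _ H.hℓm.1 Q hQ

theorem hrank : ∀ ε ∈ small A, ∃ k : ℕ, (ℓ : A) ∣ ε ^ k :=
  fun ε hε => H.hrk ε hε.1 _ H.hℓm.2

theorem not_rel {x : X} (hx : x ≠ 0) {c : B} (hc : c ∈ Cyc x) :
    ∃ N0 : ℕ, ¬ Rel Boo B0 (small A) ((ℓ : A) ^ N0) c 1 := by
  obtain ⟨c', hc', N0, hN0⟩ := H.hcycinj x hx
  exact ⟨N0, fun h => hN0 (((H.hcycrel x c' hc' c hc).of_zero _).trans small_gcd h)⟩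

/-- **(D3) the leading form**: a cocycle of a nonzero class is related, to every precision, to
`1 + W b` with `b = ∑ τ_i a_i`, some `τ_i = 1`, and `W` small, bounded independently of the
precision. -/
theorem exists_leading {x : X} (hx : x ≠ 0) {c : B} (hc : c ∈ Cyc x) :
    ∃ N0 : ℕ, ∀ n : ℕ, ∃ W ∈ small A, ∃ (τ : Fin g → A) (i0 : Fin g), τ i0 = 1 ∧
      W ∣ (ℓ : A) ^ N0 ∧
      Rel Boo B0 (small A) ((ℓ : A) ^ n) c (1 + algebraMap A B W * comb a τ) := by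
  obtain ⟨N0, hN0⟩ := H.not_rel hx hc
  refine ⟨N0, fun n => ?_⟩
  obtain ⟨w0, hw0, hw0c⟩ := H.hcyc1 x c hc
  obtain ⟨k, hk⟩ := H.hrank w0 hw0
  have hN : (ℓ : A) ^ (max n N0) ∣ w0 ^ (k * max n N0) := by
    rw [pow_mul]
    exact pow_dvd_pow_of_dvd hk _
  obtain ⟨t, ht, hrel⟩ := exists_comb (sm := small A) H.hdec hw0 hw0c (k * max n N0)
  have hrel' : Rel Boo B0 (small A) ((ℓ : A) ^ (max n N0)) c (1 + comb a t) :=
    hrel.mono (hN.trans (pow_dvd_pow w0 (Nat.le_succ _)))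
  -- some coordinate is not divisible by `ℓ ^ N0`
  have hex : ∃ i, ¬ (ℓ : A) ^ N0 ∣ t i := by
    by_contra hcon
    push Not at hcon
    have h1 : Rel Boo B0 (small A) ((ℓ : A) ^ N0) (1 + comb a t) (1 + comb a 0) :=
      rel_comb_of_dvd_sub hw0 (fun i => by simpa using hcon i)
    rw [map_zero, add_zero] at h1
    exact hN0 ((hrel'.mono (pow_dvd_pow _ (le_max_right n N0))).trans small_gcd h1)
  obtain ⟨i1, hi1⟩ := hex
  have : Nonempty (Fin g) := ⟨i1⟩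
  obtain ⟨i0, hi0⟩ := exists_dvd_all t
  have h0 : ¬ (ℓ : A) ^ N0 ∣ t i0 := fun h => hi1 (h.trans (hi0 i1))
  have hW : t i0 ∣ (ℓ : A) ^ N0 := (tot _ _).resolve_right h0
  have hW0 : t i0 ≠ 0 := fun h => h0 (h ▸ dvd_zero _)
  have hWs : t i0 ∈ small A := small_of_dvd hw0 (ht i0) hW0
  choose τ' hτ' using hi0
  refine ⟨t i0, hWs, Function.update τ' i0 1, i0, by simp, hW, ?_⟩
  have hcomb : comb a t = algebraMap A B (t i0) * comb a (Function.update τ' i0 1) := by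
    have ht0 : t = (t i0) • (Function.update τ' i0 1) := funext fun i => by
      by_cases h : i = i0
      · subst h; simp
      · simp only [Pi.smul_apply, smul_eq_mul, Function.update_of_ne h]
        exact hτ' i
    conv_lhs => rw [ht0]
    rw [map_smul, Algebra.smul_def]
  rw [← hcomb]
  exact hrel'.mono (pow_dvd_pow _ (le_max_left n N0))

/-- **(M1) no deep `ℓ`-torsion.** -/
theorem eq_zero_of_deep {x : X} (hx : ℓ • x = 0) {c : B} (hc : c ∈ Cyc x)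
    {w ε θ : A} (hw : w ∈ small A) (hε : ε ∈ small A) (hθ : θ ∈ small A)
    (hdeep : (ℓ : A) * ε ∣ w ^ (ℓ - 1)) {z : B}
    (hrel : Rel Boo B0 (small A) (w * θ) c (1 + algebraMap A B w * z)) : x = 0 := by
  by_contra hx0
  obtain ⟨N0, hL⟩ := H.exists_leading hx0 hc
  have hwθ : w * θ ≠ 0 := mul_ne_zero hw.2 hθ.2
  obtain ⟨j, hj⟩ := H.exists_pow_dvd hwθ
  obtain ⟨W, hW, τ, i0, hτ, hWN, hrelW⟩ := hL (max j (2 * N0 + 2))
  -- Step 1: `w ∣ W`
  have hwW : w ∣ W := by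
    obtain ⟨βoo, β0, s, hz⟩ := H.hdec z
    obtain ⟨θ₁, hθ₁, d1, d2⟩ := small_gcd θ hθ w hw
    have h1 : Rel Boo B0 (small A) (w * θ) (1 + algebraMap A B W * comb a τ)
        (1 + algebraMap A B w * z) :=
      (hrelW.mono (hj.trans (pow_dvd_pow _ (le_max_left _ _)))).symm.trans small_gcd hrel
    have h2 : Rel Boo B0 (small A) (w * w) (1 + algebraMap A B w * z) (1 + comb a (w • s)) := by
      rw [hz]
      exact rel_one_step hw dvd_rfl βoo β0 s
    have h3 : Rel Boo B0 (small A) (w * θ₁) (1 + comb a (W • τ)) (1 + comb a (w • s)) := by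
      rw [map_smul, Algebra.smul_def]
      exact (h1.mono (mul_dvd_mul_left w d1)).trans small_gcd (h2.mono (mul_dvd_mul_left w d2))
    obtain ⟨ϖ, hϖ, e1, e2⟩ := small_gcd W hW w hw
    have h4 := dvd_mul_sub_of_rel H.hrk H.hsat hϖ hθ₁ (mul_ne_zero hw.2 hθ₁.2)
      (t := W • τ) (t' := w • s) (fun i => e1.trans (Dvd.intro _ rfl))
      (fun i => e2.trans (Dvd.intro _ rfl)) h3 i0
    simp only [Pi.smul_apply, smul_eq_mul, hτ, mul_one] at h4
    have h5 : w ∣ W - w * s i0 := by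
      rw [mul_comm w θ₁] at h4
      exact (mul_dvd_mul_iff_left hθ₁.2).mp h4
    have h6 := dvd_add h5 (Dvd.intro (s i0) rfl)
    rwa [sub_add_cancel] at h6
  -- Step 2: the `ℓ`-th power
  have hdeepW : (ℓ : A) * ε ∣ W ^ (ℓ - 1) := hdeep.trans (pow_dvd_pow_of_dvd hwW _)
  obtain ⟨δ, hδ, dW, dε⟩ := small_gcd W hW ε hε
  obtain ⟨b2, hb2⟩ := pow_prime_of_deep H.hℓ hdeepW dW dε (comb a τ)
  have hcℓ : c ^ ℓ ∈ Cyc 0 := by
    have := H.pow_mem hc ℓ
    rwa [hx] at this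
  have h6 : Rel Boo B0 (small A) 0 (c ^ ℓ) 1 := H.hcycrel 0 _ hcℓ 1 H.hcyc0
  have h7 : Rel Boo B0 (small A) ((ℓ : A) ^ (max j (2 * N0 + 2))) (c ^ ℓ)
      ((1 + algebraMap A B W * comb a τ) ^ ℓ) := rel_pow small_gcd hrelW ℓ
  have hq0 : (ℓ : A) * W ≠ 0 := mul_ne_zero H.hℓm.2 hW.2
  have hqq : ((ℓ : A) * W) * ((ℓ : A) * W) ∣ (ℓ : A) ^ (max j (2 * N0 + 2)) := by
    have h1 : ((ℓ : A) * W) * ((ℓ : A) * W) ∣ (ℓ : A) ^ (2 * N0 + 2) := by
      have : (ℓ : A) ^ (2 * N0 + 2) = ((ℓ : A) * (ℓ : A) ^ N0) * ((ℓ : A) * (ℓ : A) ^ N0) := by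
        ring
      rw [this]
      exact mul_dvd_mul (mul_dvd_mul_left _ hWN) (mul_dvd_mul_left _ hWN)
    exact h1.trans (pow_dvd_pow _ (le_max_right _ _))
  obtain ⟨βoo, β0, s, hb2d⟩ := H.hdec b2
  have h8 : Rel Boo B0 (small A) (((ℓ : A) * W) * ((ℓ : A) * W))
      ((1 + algebraMap A B W * comb a τ) ^ ℓ) (1 + comb a (((ℓ : A) * W) • (τ + δ • s))) := by
    rw [hb2]
    have h1 : comb a τ + algebraMap A B δ * b2
        = ((δ • βoo : Boo) : B) + ((δ • β0 : B0) : B) + comb a (τ + δ • s) := by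
      rw [hb2d, map_add, map_smul]
      simp only [Algebra.smul_def, Subalgebra.coe_mul, Subalgebra.coe_algebraMap]
      ring
    rw [h1]
    exact rel_one_step hW (Dvd.intro_left _ rfl) _ _ _
  have h9 : Rel Boo B0 (small A) (((ℓ : A) * W) * ((ℓ : A) * W))
      (1 + comb a (((ℓ : A) * W) • (τ + δ • s))) (1 + comb a (0 : Fin g → A)) := by
    rw [map_zero, add_zero]
    exact h8.symm.trans small_gcd ((h7.mono hqq).symm.trans small_gcd (h6.of_zero _))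
  have h10 := dvd_mul_sub_of_rel H.hrk H.hsat hW hW (mul_ne_zero hq0 hq0)
    (t := ((ℓ : A) * W) • (τ + δ • s)) (t' := 0)
    (fun i => (Dvd.intro_left (ℓ : A) rfl).trans (Dvd.intro _ rfl)) (fun i => dvd_zero _) h9 i0
  simp only [Pi.smul_apply, Pi.add_apply, smul_eq_mul, hτ, Pi.zero_apply, sub_zero] at h10
  have h11 : (ℓ : A) * W ∣ W * (1 + δ * s i0) := by
    have h1 : ((ℓ : A) * W) * ((ℓ : A) * W) ∣ ((ℓ : A) * W) * (W * (1 + δ * s i0)) := by
      convert h10 using 1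
      ring
    exact (mul_dvd_mul_iff_left hq0).mp h1
  obtain ⟨u, hu⟩ := isUnit_one_add_mul hδ (s i0)
  have h12 : (ℓ : A) * W ∣ W := by
    have h1 := Dvd.dvd.mul_right h11 (↑u⁻¹ : A)
    rwa [mul_assoc, ← hu, Units.mul_inv, mul_one] at h1
  have h13 : (ℓ : A) ∣ 1 := by
    have h1 : W * (ℓ : A) ∣ W * 1 := by
      rw [mul_one, mul_comm]
      exact h12
    exact (mul_dvd_mul_iff_left hW.2).mp h1
  exact small_not_isUnit H.hℓm (isUnit_of_dvd_one h13)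

/-- **(N1) the Frobenius of the leading class.** -/
theorem exists_leading_frob {x : X} (hx0 : x ≠ 0) (hx : ℓ • x = 0) {c : B} (hc : c ∈ Cyc x) :
    ∃ W ∈ small A, ∃ θ ∈ small A, ∃ (τ : Fin g → A) (i0 : Fin g), τ i0 = 1 ∧
      Rel Boo B0 (small A) (W * θ) c (1 + algebraMap A B W * comb a τ) ∧
      (∀ ε ∈ small A, ¬ (ℓ : A) * ε ∣ W ^ (ℓ - 1)) ∧
      (∀ ε ∈ small A, W ^ (ℓ - 1) * ε ∣ (ℓ : A) → ∃ δ ∈ small A, ∃ (βoo : Boo) (β0 : B0),
        algebraMap A B δ ∣ (comb a τ) ^ ℓ - βoo - β0) := by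
  obtain ⟨N0, hL⟩ := H.exists_leading hx0 hc
  obtain ⟨W, hW, τ, i0, hτ, hWN, hrelW⟩ := hL (2 * ℓ * N0)
  have hℓ2 : 2 ≤ ℓ := H.hℓ.two_le
  -- `W ^ (2 ℓ) ∣ ℓ ^ (2 ℓ N0)`
  have hQQ : W ^ ℓ * W ^ ℓ ∣ (ℓ : A) ^ (2 * ℓ * N0) := by
    have h1 : (ℓ : A) ^ (2 * ℓ * N0) = ((ℓ : A) ^ N0) ^ ℓ * ((ℓ : A) ^ N0) ^ ℓ := by
      rw [← pow_mul, ← pow_add]
      congr 1
      ring
    rw [h1]
    exact mul_dvd_mul (pow_dvd_pow_of_dvd hWN _) (pow_dvd_pow_of_dvd hWN _)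
  have hWW : W * W ∣ (ℓ : A) ^ (2 * ℓ * N0) := by
    refine Dvd.dvd.trans ?_ hQQ
    exact mul_dvd_mul (dvd_pow_self W (by omega)) (dvd_pow_self W (by omega))
  have hrelWW : Rel Boo B0 (small A) (W * W) c (1 + algebraMap A B W * comb a τ) :=
    hrelW.mono hWW
  refine ⟨W, hW, W, hW, τ, i0, hτ, hrelWW, ?_, ?_⟩
  · intro ε hε hdeep
    exact hx0 (H.eq_zero_of_deep hx hc hW hε hW hdeep hrelWW)
  · intro ε hε hsh
    obtain ⟨z3, hz3⟩ := pow_prime_of_shallow (B := B) H.hℓ hsh (comb a τ)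
    obtain ⟨βoo, β0, s, hbd⟩ := H.hdec ((comb a τ) ^ ℓ)
    obtain ⟨γoo, γ0, s', hzd⟩ := H.hdec z3
    have hcℓ : c ^ ℓ ∈ Cyc 0 := by
      have := H.pow_mem hc ℓ
      rwa [hx] at this
    have h6 : Rel Boo B0 (small A) 0 (c ^ ℓ) 1 := H.hcycrel 0 _ hcℓ 1 H.hcyc0
    have h7 : Rel Boo B0 (small A) ((ℓ : A) ^ (2 * ℓ * N0)) (c ^ ℓ)
        ((1 + algebraMap A B W * comb a τ) ^ ℓ) := rel_pow small_gcd hrelW ℓ
    have hQ0 : W ^ ℓ ≠ 0 := pow_ne_zero _ hW.2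
    have h8 : Rel Boo B0 (small A) (W ^ ℓ * W ^ ℓ)
        ((1 + algebraMap A B W * comb a τ) ^ ℓ) (1 + comb a ((W ^ ℓ) • (s + ε • s'))) := by
      rw [hz3]
      have h1 : (comb a τ) ^ ℓ + algebraMap A B ε * z3
          = ((βoo + ε • γoo : Boo) : B) + ((β0 + ε • γ0 : B0) : B) + comb a (s + ε • s') := by
        rw [hbd, hzd, map_add, map_smul]
        simp only [Subalgebra.coe_add, Algebra.smul_def, Subalgebra.coe_mul,
          Subalgebra.coe_algebraMap]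
        ring
      rw [h1]
      exact rel_one_step hW (dvd_pow_self W (by omega)) _ _ _
    have h9 : Rel Boo B0 (small A) (W ^ ℓ * W ^ ℓ)
        (1 + comb a ((W ^ ℓ) • (s + ε • s'))) (1 + comb a (0 : Fin g → A)) := by
      rw [map_zero, add_zero]
      exact h8.symm.trans small_gcd ((h7.mono hQQ).symm.trans small_gcd (h6.of_zero _))
    have h10 := dvd_mul_sub_of_rel H.hrk H.hsat hW hW (mul_ne_zero hQ0 hQ0)
      (t := (W ^ ℓ) • (s + ε • s')) (t' := 0)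
      (fun i => (dvd_pow_self W (by omega)).trans (Dvd.intro _ rfl)) (fun i => dvd_zero _) h9
    obtain ⟨δ, hδ, dW, dε⟩ := small_gcd W hW ε hε
    have hs : ∀ i, δ ∣ s i := by
      intro i
      have h1 := h10 i
      simp only [Pi.smul_apply, Pi.add_apply, smul_eq_mul, Pi.zero_apply, sub_zero] at h1
      have h2 : W ^ ℓ ∣ W * (s i + ε * s' i) := by
        have h3 : W ^ ℓ * W ^ ℓ ∣ W ^ ℓ * (W * (s i + ε * s' i)) := by
          convert h1 using 1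
          ring
        exact (mul_dvd_mul_iff_left hQ0).mp h3
      have h4 : W * W ∣ W * (s i + ε * s' i) :=
        Dvd.dvd.trans (by
          have : W ^ ℓ = W * W * W ^ (ℓ - 2) := by
            rw [← pow_two, ← pow_add]
            congr 1
            omega
          rw [this]
          exact Dvd.intro _ rfl) h2
      have h5 : W ∣ s i + ε * s' i := (mul_dvd_mul_iff_left hW.2).mp h4
      have h6 : δ ∣ s i + ε * s' i := dW.trans h5
      have h7 : δ ∣ ε * s' i := Dvd.dvd.mul_right dε _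
      have h8 := dvd_sub h6 h7
      rwa [add_sub_cancel_right] at h8
    refine ⟨δ, hδ, βoo, β0, ?_⟩
    obtain ⟨σ, -, hσ⟩ := comb_eq_of_dvd (a := a) hs
    have h11 : (comb a τ) ^ ℓ - βoo - β0 = algebraMap A B δ * comb a σ := by
      rw [hbd, ← hσ]
      ring
    rw [h11]
    exact Dvd.intro _ rfl

end Core

end Fermat.Agent.S40x.Depth
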