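/-
P-S44/S40 (block C4'' + C3-AS toolbox, helper57): the abstract DEPTH CALCULUS on Cech cocycles.

`Inertia`: the action of a group `Γ` of semilinear operators (the inertia group) acting trivially on
the reductions.

* `Core.smul_eq_of_crit` (E/M2): a class killed by `ℓ` with a cocycle `≡ 1 + W b`, `ℓ ∣ W ^ (ℓ - 1)`
  (depth `≥ 1/(ℓ-1)`), on which `γ` acts on `W` by the scalar `e` modulo smaller terms, satisfies
  `γ x = e • x`;
* `Core.smul_eq_of_toric` (C4'' abstract): if no leading class of `x` is killed by Frobenius (`x`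
  is TORIC) then `γ x = e γ • x` where `e` is the character of `Γ` on `π₁`, `π₁ ^ (ℓ - 1) ~ ℓ`
  (the cyclotomic character modulo `ℓ` for `π₁ = ζ_ℓ - 1`).
-/
import Fermat.Agent.S40x.Depth.Torsion

set_option autoImplicit false
set_option linter.unusedSectionVars false
set_option linter.overlappingInstances false

namespace Fermat.Agent.S40x.Depth

open IsLocalRing Fermat.Agent.S33x.Cech Fermat.Agent.S33x.Cech.Coord

variable {A : Type*} [CommRing A] [IsDomain A] [ValuationRing A] [IsLocalRing A]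
variable {B : Type*} [CommRing B] [Algebra A B]
variable {Boo B0 : Subalgebra A B} {g : ℕ} {a : Fin g → B}
variable {X : Type*} [AddCommGroup X] {Cyc : X → Set B} {ℓ : ℕ}
variable {Γ : Type*} {σA : Γ → A →+* A} {σB : Γ → B →+* B} {σX : Γ → X →+ X}

/-- The Galois part of the bundle of `S33x/Cech/Coord.exists_charts_of_cyc`, plus: `Γ` acts
trivially on the reductions of `A` and `B` (inertia), and the value group has no smallest positive
element (`hsq`). -/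
structure Gal (Boo B0 : Subalgebra A B) (Cyc : X → Set B) (σA : Γ → A →+* A) (σB : Γ → B →+* B)
    (σX : Γ → X →+ X) : Prop where
  hσ : ∀ γ (x : A), σB γ (algebraMap A B x) = algebraMap A B (σA γ x)
  hσoo : ∀ γ, ∀ x ∈ Boo, σB γ x ∈ Boo
  hσ0 : ∀ γ, ∀ x ∈ B0, σB γ x ∈ B0
  hσdvd : ∀ γ, ∀ ε ∈ small A, ε ∣ σA γ ε
  hcycgal : ∀ γ x, ∀ c ∈ Cyc x, σB γ c ∈ Cyc (σX γ x)
  htrivA : ∀ γ (y : A), ∃ ε ∈ small A, ε ∣ σA γ y - y
  htrivB : ∀ γ (z : B), ∃ ε ∈ small A, algebraMap A B ε ∣ σB γ z - z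
  hsq : ∀ ε ∈ small A, ∃ θ ∈ small A, θ * θ ∣ ε

namespace Core

variable (H : Core Boo B0 a ℓ Cyc) (G : Gal Boo B0 Cyc σA σB σX)
include H G

/-- **(E) inertia acts by the character of `W` at depth `≥ 1/(ℓ-1)`.** -/
theorem smul_eq_of_crit {x : X} (hx : ℓ • x = 0) {c : B} (hc : c ∈ Cyc x)
    {W θ : A} (hW : W ∈ small A) (hθ : θ ∈ small A) (hcrit : (ℓ : A) ∣ W ^ (ℓ - 1)) {b : B}
    (hrel : Rel Boo B0 (small A) (W * θ) c (1 + algebraMap A B W * b)) (γ : Γ) {e : ℕ} {ε : A}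
    (hε : ε ∈ small A) (hchar : W * ε ∣ σA γ W - e * W) : σX γ x = e • x := by
  have hℓ1 : 1 ≤ ℓ := H.hℓ.one_le
  -- the cocycle `u` of `y = γ x + e (ℓ - 1) x`
  have hu : σB γ c * c ^ (e * (ℓ - 1)) ∈ Cyc (σX γ x + (e * (ℓ - 1)) • x) :=
    H.hcycmul _ _ _ (G.hcycgal γ x c hc) _ (H.pow_mem hc _)
  have hy : ℓ • (σX γ x + (e * (ℓ - 1)) • x) = 0 := by
    rw [smul_add, ← map_nsmul, hx, map_zero, smul_comm, hx, smul_zero, add_zero]
  -- transport of the relation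
  have h3 : Rel Boo B0 (small A) (W * θ) (σB γ c) (σB γ (1 + algebraMap A B W * b)) :=
    Rel.map (σA γ) (σB γ) (G.hσ γ) (G.hσoo γ) (G.hσ0 γ)
      (fun ε hε => ⟨ε, hε, G.hσdvd γ ε hε⟩) (G.hσdvd γ _ (small_mul hW hθ)) hrel
  have h4 : Rel Boo B0 (small A) (W * θ) (c ^ (e * (ℓ - 1)))
      ((1 + algebraMap A B W * b) ^ (e * (ℓ - 1))) := rel_pow small_gcd hrel _
  have h5 := Rel.mul small_gcd h3 h4
  -- the expansion
  obtain ⟨y1, hy1⟩ := hchar
  obtain ⟨ε₂, hε₂, b', hb'⟩ := G.htrivB γ b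
  obtain ⟨r, hr⟩ := exists_one_add_pow (algebraMap A B W * b) (e * (ℓ - 1))
  obtain ⟨δ₁, hδ₁, a1, a2⟩ := small_gcd ε hε ε₂ hε₂
  obtain ⟨δ₂, hδ₂, a3, a4⟩ := small_gcd δ₁ hδ₁ (ℓ : A) H.hℓm
  obtain ⟨δ₃, hδ₃, a5, a6⟩ := small_gcd δ₂ hδ₂ W hW
  obtain ⟨δ, hδ, a7, a8⟩ := small_gcd δ₃ hδ₃ θ hθ
  obtain ⟨ε', hε'⟩ : δ ∣ ε := ((a7.trans a5).trans a3).trans a1
  obtain ⟨ε₂', hε₂'⟩ : δ ∣ ε₂ := ((a7.trans a5).trans a3).trans a2
  obtain ⟨ℓ', hℓ'⟩ : δ ∣ (ℓ : A) := (a7.trans a5).trans a4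
  obtain ⟨W', hW'⟩ : δ ∣ W := a7.trans a6
  have hcast : ((e * (ℓ - 1) : ℕ) : B) = (e : B) * (ℓ : B) - e := by
    rw [Nat.cast_mul, Nat.cast_pred (by omega)]
    ring
  have hℓB : (ℓ : B) = algebraMap A B δ * algebraMap A B ℓ' := by
    rw [← map_mul, ← hℓ', map_natCast]
  have hσW : algebraMap A B (σA γ W) = (e : B) * algebraMap A B W
      + algebraMap A B W * algebraMap A B ε * algebraMap A B y1 := by
    have h1 : σA γ W = e * W + W * ε * y1 := by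
      rw [← hy1]
      ring
    rw [h1]
    simp only [map_add, map_mul, map_natCast]
  have hσb : σB γ b = b + algebraMap A B ε₂ * b' := by
    rw [← hb']
    ring
  obtain ⟨z', hz'⟩ : ∃ z' : B, σB γ (1 + algebraMap A B W * b)
      * (1 + algebraMap A B W * b) ^ (e * (ℓ - 1)) = 1 + algebraMap A B (W * δ) * z' := by
    refine ⟨-((e : B) ^ 2 * algebraMap A B W' * b ^ 2)
      + ((e : B) * algebraMap A B ε₂' * b' + algebraMap A B ε' * algebraMap A B y1 * b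
          + algebraMap A B ε' * algebraMap A B y1 * algebraMap A B ε₂ * b')
      + ((e : B) * algebraMap A B ℓ' * b + algebraMap A B W' * b ^ 2 * r)
      + (e : B) * algebraMap A B W * b
          * ((e : B) * algebraMap A B ℓ' * b + algebraMap A B W' * b ^ 2 * r)
      - (e : B) * algebraMap A B W * b
          * ((e : B) * algebraMap A B ε₂' * b' + algebraMap A B ε' * algebraMap A B y1 * b
          + algebraMap A B ε' * algebraMap A B y1 * algebraMap A B ε₂ * b')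
      + algebraMap A B W * algebraMap A B δ
          * ((e : B) * algebraMap A B ε₂' * b' + algebraMap A B ε' * algebraMap A B y1 * b
          + algebraMap A B ε' * algebraMap A B y1 * algebraMap A B ε₂ * b')
          * ((e : B) * algebraMap A B ℓ' * b + algebraMap A B W' * b ^ 2 * r), ?_⟩
    rw [map_add, map_one, map_mul, G.hσ, hσW, hσb, hr, hcast, hℓB]
    have hεB : algebraMap A B ε = algebraMap A B δ * algebraMap A B ε' := by
      rw [← map_mul, ← hε']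
    have hε₂B : algebraMap A B ε₂ = algebraMap A B δ * algebraMap A B ε₂' := by
      rw [← map_mul, ← hε₂']
    have hWB : algebraMap A B W = algebraMap A B δ * algebraMap A B W' := by
      rw [← map_mul, ← hW']
    rw [map_mul, hεB, hε₂B, hWB]
    ring
  rw [hz'] at h5
  -- a square root of the gain
  obtain ⟨θ₁, hθ₁, hθθ⟩ := G.hsq δ hδ
  obtain ⟨δ'', hδ''⟩ := hθθ
  have hdeep : (ℓ : A) * θ₁ ∣ (W * θ₁) ^ (ℓ - 1) := by
    rw [mul_pow]
    exact mul_dvd_mul hcrit (dvd_pow_self θ₁ (by have := H.hℓ.two_le; omega))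
  have h6 : Rel Boo B0 (small A) ((W * θ₁) * θ₁) (σB γ c * c ^ (e * (ℓ - 1)))
      (1 + algebraMap A B (W * θ₁) * (algebraMap A B (θ₁ * δ'') * z')) := by
    have h1 : (1 : B) + algebraMap A B (W * θ₁) * (algebraMap A B (θ₁ * δ'') * z')
        = 1 + algebraMap A B (W * δ) * z' := by
      rw [hδ'']
      simp only [map_mul]
      ring
    rw [h1]
    refine h5.mono ?_
    rw [mul_assoc]
    exact mul_dvd_mul_left W ((Dvd.intro _ hδ''.symm).trans a8)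
  have h7 := H.eq_zero_of_deep hy hu (small_mul hW hθ₁) hθ₁ hθ₁ hdeep h6
  -- conclusion
  have h8 : (e * (ℓ - 1)) • x + e • x = 0 := by
    rw [← add_smul]
    have : e * (ℓ - 1) + e = e * ℓ := by
      have : ℓ - 1 + 1 = ℓ := by omega
      calc e * (ℓ - 1) + e = e * (ℓ - 1 + 1) := by ring
        _ = e * ℓ := by rw [this]
    rw [this, mul_smul, hx, smul_zero]
  have h9 : σX γ x = -((e * (ℓ - 1)) • x) := eq_neg_of_add_eq_zero_left h7
  rw [h9]
  exact neg_eq_of_add_eq_zero_right h8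

/-- **(C4'' abstract)**: on a TORIC class killed by `ℓ` the group `Γ` acts through the character
`e` of `π₁`. -/
theorem smul_eq_of_toric {π₁ : A} (hπℓ : Associated (π₁ ^ (ℓ - 1)) (ℓ : A)) (e : Γ → ℕ)
    (hchar : ∀ γ, ∃ ε ∈ small A, π₁ * ε ∣ σA γ π₁ - e γ * π₁) {x : X} (hx : ℓ • x = 0)
    (hne : (Cyc x).Nonempty)
    (htor : ∀ c ∈ Cyc x, ∀ W ∈ small A, ∀ θ ∈ small A, ∀ (τ : Fin g → A) (i0 : Fin g), τ i0 = 1 →
      Rel Boo B0 (small A) (W * θ) c (1 + algebraMap A B W * comb a τ) →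
      ∀ δ ∈ small A, ∀ (βoo : Boo) (β0 : B0), ¬ algebraMap A B δ ∣ (comb a τ) ^ ℓ - βoo - β0)
    (γ : Γ) : σX γ x = e γ • x := by
  by_cases hx0 : x = 0
  · rw [hx0, map_zero, smul_zero]
  obtain ⟨c, hc⟩ := hne
  obtain ⟨W, hW, θ, hθ, τ, i0, hτ, hrel, hnd, hsh⟩ := H.exists_leading_frob hx0 hx hc
  have hℓ1 : ℓ - 1 ≠ 0 := by have := H.hℓ.two_le; omega
  have hWℓ : W ^ (ℓ - 1) ≠ 0 := pow_ne_zero _ hW.2
  -- not deep
  have h1 : W ^ (ℓ - 1) ∣ (ℓ : A) := by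
    rcases tot (ℓ : A) (W ^ (ℓ - 1)) with ⟨y, hy⟩ | h
    · by_cases hyu : IsUnit y
      · obtain ⟨u, rfl⟩ := hyu
        exact ⟨(↑u⁻¹ : A), by rw [hy, mul_assoc, Units.mul_inv, mul_one]⟩
      · have hy0 : y ≠ 0 := fun h0 => hWℓ (by rw [hy, h0, mul_zero])
        exact absurd (Dvd.intro_left 1 (by rw [one_mul, hy])) (hnd y (small_of_not_isUnit hy0 hyu))
    · exact h
  -- not shallow
  have h2 : (ℓ : A) ∣ W ^ (ℓ - 1) := by
    rcases tot (ℓ : A) (W ^ (ℓ - 1)) with h | ⟨y, hy⟩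
    · exact h
    · by_cases hyu : IsUnit y
      · obtain ⟨u, rfl⟩ := hyu
        exact ⟨(↑u⁻¹ : A), by rw [hy, mul_assoc, Units.mul_inv, mul_one]⟩
      · have hy0 : y ≠ 0 := fun h0 => H.hℓm.2 (by rw [hy, h0, mul_zero])
        obtain ⟨δ, hδ, βoo, β0, hdvd⟩ := hsh y (small_of_not_isUnit hy0 hyu) (Dvd.intro_left 1
          (by rw [one_mul, hy]))
        exact absurd hdvd (htor c hc W hW θ hθ τ i0 hτ hrel δ hδ βoo β0)
  -- `W ~ π₁`
  have h3 : π₁ ∣ W := dvd_of_pow_dvd_pow hℓ1 (hπℓ.dvd.trans h2)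
  have h4 : W ∣ π₁ := dvd_of_pow_dvd_pow hℓ1 (h1.trans hπℓ.symm.dvd)
  obtain ⟨υ, hυ⟩ := associated_of_dvd_dvd h3 h4
  -- the character on `W`
  obtain ⟨ε, hε, y1, hy1⟩ := hchar γ
  obtain ⟨ε', hε', y2, hy2⟩ := G.htrivA γ (υ : A)
  obtain ⟨δ, hδ, d1, d2⟩ := small_gcd ε hε ε' hε'
  obtain ⟨ε₁, rfl⟩ := d1
  obtain ⟨ε₁', rfl⟩ := d2
  have hcharW : W * δ ∣ σA γ W - (e γ : A) * W := by
    have h5 : σA γ π₁ = e γ * π₁ + π₁ * (δ * ε₁) * y1 := by
      rw [← hy1]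
      ring
    have h6 : σA γ (υ : A) = υ + δ * ε₁' * y2 := by
      rw [← hy2]
      ring
    refine ⟨(↑υ⁻¹ : A) * ((e γ : A) * ε₁' * y2 + ε₁ * y1 * υ + ε₁ * y1 * (δ * ε₁') * y2), ?_⟩
    rw [← hυ, map_mul, h5, h6]
    have h7 : (υ : A) * (↑υ⁻¹ : A) = 1 := Units.mul_inv υ
    linear_combination (-(π₁ * δ * ((e γ : A) * ε₁' * y2 + ε₁ * y1 * υ
      + ε₁ * y1 * (δ * ε₁') * y2))) * h7
  exact H.smul_eq_of_crit G hx hc hW hθ h2 hrel γ hδ hcharW

end Core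

end Fermat.Agent.S40x.Depth
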