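/-
P-S44/S40 (block C4'' + C3-AS toolbox, helper57): the abstract DEPTH CALCULUS on Cech cocycles.

`Frob`: **(F) Frobenius is injective on toric classes**, abstractly.  `res : B →+* Bt` the reduction
(`Bt` = the product of the coordinate rings of the components of the special fibre, a ring of
characteristic `ℓ`), `Btoo Bt0 : Subring Bt` the UNGLUED chart rings.  Hypotheses (structure `Red`):
`ker res = m B`; `res Boo ⊆ Btoo`, `res B0 ⊆ Bt0`; every element of `Btoo ∩ Bt0` (the constants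
`k × k`, `k` perfect) is an `ℓ`-th power there; `res Boo` is `ℓ`-power radical in `Btoo` and
`res B0` in `Bt0` (landed `S33x/L1/Radical.mem_of_pow_mem` on each chart).

* `Red.mem_of_frob`: `res z ∈ Btoo + Bt0` and `(res z) ^ ℓ ∈ res Boo + res B0` imply
  `res z ∈ res Boo + res B0`;
* `Core.smul_eq_of_res_toric` (C4'' abstract, reduction form): if the reductions of all leading
  classes of `x` are UNGLUED coboundaries (`∈ Btoo + Bt0`) then `γ x = e γ • x`.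
-/
import Fermat.Agent.S40x.Depth.Inertia

set_option autoImplicit false
set_option linter.unusedSectionVars false
set_option linter.overlappingInstances false

namespace Fermat.Agent.S40x.Depth

open IsLocalRing Fermat.Agent.S33x.Cech Fermat.Agent.S33x.Cech.Coord

variable {A : Type*} [CommRing A] [IsDomain A] [ValuationRing A] [IsLocalRing A]
variable {B : Type*} [CommRing B] [Algebra A B]
variable {Boo B0 : Subalgebra A B} {g : ℕ} {a : Fin g → B}
variable {X : Type*} [AddCommGroup X] {Cyc : X → Set B} {ℓ : ℕ}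
variable {Γ : Type*} {σA : Γ → A →+* A} {σB : Γ → B →+* B} {σX : Γ → X →+ X}
variable {Bt : Type*} [CommRing Bt] {res : B →+* Bt} {Btoo Bt0 : Subring Bt}

/-- The reduction data needed for (F). -/
structure Red (Boo B0 : Subalgebra A B) (res : B →+* Bt) (Btoo Bt0 : Subring Bt) (ℓ : ℕ) :
    Prop where
  hchar : (ℓ : Bt) = 0
  hker : ∀ δ ∈ small A, ∀ z : B, res (algebraMap A B δ * z) = 0
  hker' : ∀ z : B, res z = 0 → ∃ δ ∈ small A, algebraMap A B δ ∣ z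
  hoo : ∀ x ∈ Boo, res x ∈ Btoo
  h0 : ∀ x ∈ B0, res x ∈ Bt0
  hconst : ∀ y ∈ Btoo, y ∈ Bt0 → ∃ y' ∈ Btoo, y' ∈ Bt0 ∧ y' ^ ℓ = y
  hradoo : ∀ y ∈ Btoo, ∀ β ∈ Boo, y ^ ℓ = res β → ∃ β' ∈ Boo, res β' = y
  hrad0 : ∀ y ∈ Bt0, ∀ β ∈ B0, y ^ ℓ = res β → ∃ β' ∈ B0, res β' = y

namespace Red

variable (R : Red Boo B0 res Btoo Bt0 ℓ) (hℓ : ℓ.Prime)
include R hℓ

theorem add_pow (x y : Bt) : (x + y) ^ ℓ = x ^ ℓ + y ^ ℓ := by
  obtain ⟨r, hr⟩ := exists_add_pow_prime_eq hℓ x y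
  rw [hr, R.hchar]
  ring

theorem sub_pow (x y : Bt) : (x - y) ^ ℓ = x ^ ℓ - y ^ ℓ := by
  have h := R.add_pow hℓ (x - y) y
  rw [sub_add_cancel] at h
  rw [h]
  ring

/-- **(F)** Frobenius is injective on toric classes. -/
theorem mem_of_frob {z : B} {foo f0 : Bt} (hfoo : foo ∈ Btoo) (hf0 : f0 ∈ Bt0)
    (hz : res z = foo + f0) {βoo : Boo} {β0 : B0} (hF : (res z) ^ ℓ = res βoo + res β0) :
    ∃ (βoo' : Boo) (β0' : B0), res z = res βoo' + res β0' := by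
  rw [hz, R.add_pow hℓ] at hF
  -- the constant
  have h1 : foo ^ ℓ - res βoo = res β0 - f0 ^ ℓ := by linear_combination hF
  have h2 : foo ^ ℓ - res βoo ∈ Btoo :=
    Btoo.sub_mem (Btoo.pow_mem hfoo ℓ) (R.hoo _ βoo.2)
  have h3 : foo ^ ℓ - res βoo ∈ Bt0 := by
    rw [h1]
    exact Bt0.sub_mem (R.h0 _ β0.2) (Bt0.pow_mem hf0 ℓ)
  obtain ⟨γ, hγoo, hγ0, hγ⟩ := R.hconst _ h2 h3
  -- the two corrected pieces are glued
  have h4 : (foo - γ) ^ ℓ = res βoo := by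
    rw [R.sub_pow hℓ, hγ]
    ring
  have h5 : (f0 + γ) ^ ℓ = res β0 := by
    rw [R.add_pow hℓ, hγ, h1]
    ring
  obtain ⟨β, hβ, hβe⟩ := R.hradoo _ (Btoo.sub_mem hfoo hγoo) βoo βoo.2 h4
  obtain ⟨β', hβ', hβe'⟩ := R.hrad0 _ (Bt0.add_mem hf0 hγ0) β0 β0.2 h5
  refine ⟨⟨β, hβ⟩, ⟨β', hβ'⟩, ?_⟩
  rw [hz]
  show foo + f0 = res β + res β'
  rw [hβe, hβe']
  ring

end Red

/-- **(C4'' abstract, reduction form).**  If the reductions of all leading classes of the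
`ℓ`-torsion class `x` are unglued coboundaries then `Γ` acts on `x` through the character `e` of
`π₁`, `π₁ ^ (ℓ - 1) ~ ℓ`. -/
theorem Core.smul_eq_of_res_toric (H : Core Boo B0 a ℓ Cyc) (G : Gal Boo B0 Cyc σA σB σX)
    (R : Red Boo B0 res Btoo Bt0 ℓ) {π₁ : A} (hπℓ : Associated (π₁ ^ (ℓ - 1)) (ℓ : A))
    (e : Γ → ℕ) (hchar : ∀ γ, ∃ ε ∈ small A, π₁ * ε ∣ σA γ π₁ - e γ * π₁) {x : X}
    (hx : ℓ • x = 0) (hne : (Cyc x).Nonempty)
    (htor : ∀ c ∈ Cyc x, ∀ W ∈ small A, ∀ θ ∈ small A, ∀ (τ : Fin g → A) (i0 : Fin g), τ i0 = 1 →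
      Rel Boo B0 (small A) (W * θ) c (1 + algebraMap A B W * comb a τ) →
      ∃ foo ∈ Btoo, ∃ f0 ∈ Bt0, res (comb a τ) = foo + f0)
    (γ : Γ) : σX γ x = e γ • x := by
  refine H.smul_eq_of_toric G hπℓ e hchar hx hne ?_ γ
  intro c hc W hW θ hθ τ i0 hτ hrel δ hδ βoo β0 hdvd
  obtain ⟨foo, hfoo, f0, hf0, hz⟩ := htor c hc W hW θ hθ τ i0 hτ hrel
  -- Frobenius of the reduction
  have hF : (res (comb a τ)) ^ ℓ = res βoo + res β0 := by
    obtain ⟨y, hy⟩ := hdvd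
    have h1 : (comb a τ) ^ ℓ = (βoo : B) + β0 + algebraMap A B δ * y := by
      rw [← hy]
      ring
    rw [← map_pow, h1, map_add, map_add, R.hker δ hδ y, add_zero]
  obtain ⟨βoo', β0', h2⟩ := R.mem_of_frob H.hℓ hfoo hf0 hz hF
  -- saturation
  have h3 : res (comb a τ - βoo' - β0') = 0 := by
    rw [map_sub, map_sub, h2]
    ring
  obtain ⟨δ', hδ', hd⟩ := R.hker' _ h3
  have h4 : algebraMap A B δ' ∣ ((-βoo' : Boo) : B) + ((-β0' : B0) : B) + comb a τ := by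
    have : ((-βoo' : Boo) : B) + ((-β0' : B0) : B) + comb a τ = comb a τ - βoo' - β0' := by
      push_cast
      ring
    rw [this]
    exact hd
  have h5 := (H.hsat δ' hδ').sat _ _ _ h4 i0
  rw [hτ] at h5
  exact small_not_isUnit hδ' (isUnit_of_dvd_one h5)

end Fermat.Agent.S40x.Depth
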