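/-
P-S44/S40 (block C4'' + C3-AS toolbox, helper57): the abstract DEPTH CALCULUS on Cech cocycles.

`Crit`: the critical depth `1/(ℓ-1)`.

* `Core.dvd_of_leading` (D5): the depth is well defined on classes: a leading form `1 + W b`
  (`b = ∑ τ_i a_i`, some `τ_i = 1`) of ONE cocycle of `x` bounds the depth of EVERY cocycle of `x`;
* `rel_pow_prime`: raising to the `ℓ`-th power improves the precision of `Rel`;
* `pow_prime_crit` (P+): `(1 + π₁ z) ^ ℓ = 1 + π₁ ^ ℓ (z ^ ℓ - z + π₁ z₄)` when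
  `ℓ = π₁ ^ (ℓ - 1) (-1 + π₁ y)` (`π₁ = ζ_ℓ - 1`: Wilson);
* `Core.exists_artinSchreier` (AS, cocycle form): a class killed by `ℓ` with a cocycle
  `≡ 1 + π₁ z` has `z ^ ℓ - z ∈ Boo + B0 + δ B`;
* `Red.exists_artinSchreier` (AS, reduction form): if moreover `res z` is an unglued coboundary,
  it is `y_oo + y_0` with `y_oo ^ ℓ - y_oo ∈ res Boo`, `y_0 ^ ℓ - y_0 ∈ res B0`
  (the gluing vector `λ_s = y_oo(s) - y_0(s) ∈ 𝔽_ℓ` of the toric class).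
-/
import Fermat.Agent.S40x.Depth.Frob

set_option autoImplicit false
set_option linter.unusedSectionVars false
set_option linter.overlappingInstances false

namespace Fermat.Agent.S40x.Depth

open IsLocalRing Fermat.Agent.S33x.Cech Fermat.Agent.S33x.Cech.Coord

variable {A : Type*} [CommRing A] [IsDomain A] [ValuationRing A] [IsLocalRing A]
variable {B : Type*} [CommRing B] [Algebra A B]
variable {Boo B0 : Subalgebra A B} {g : ℕ} {a : Fin g → B}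
variable {X : Type*} [AddCommGroup X] {Cyc : X → Set B} {ℓ : ℕ}

/-- **(D5) the depth is well defined on classes.** -/
theorem Core.dvd_of_leading (H : Core Boo B0 a ℓ Cyc)
    (hsq : ∀ ε ∈ small A, ∃ θ ∈ small A, θ * θ ∣ ε) {x : X} {c c' : B} (hc : c ∈ Cyc x)
    (hc' : c' ∈ Cyc x) {W θ : A} (hW : W ∈ small A) (hθ : θ ∈ small A) {τ : Fin g → A}
    {i0 : Fin g} (hτ : τ i0 = 1)
    (hrel : Rel Boo B0 (small A) (W * θ) c (1 + algebraMap A B W * comb a τ))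
    {w' θ' : A} (hw' : w' ∈ small A) {z' : B}
    (hrel' : Rel Boo B0 (small A) (w' * θ') c' (1 + algebraMap A B w' * z')) : w' ∣ W := by
  rcases tot w' W with h | ⟨y, rfl⟩
  · exact h
  by_cases hyu : IsUnit y
  · obtain ⟨u, rfl⟩ := hyu
    exact ⟨(↑u⁻¹ : A), by rw [mul_assoc, Units.mul_inv, mul_one]⟩
  exfalso
  have hy0 : y ≠ 0 := fun h0 => hw'.2 (by rw [h0, mul_zero])
  have hy : y ∈ small A := small_of_not_isUnit hy0 hyu
  obtain ⟨θ₂, hθ₂, d1, d2⟩ := small_gcd θ hθ y hy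
  have hQ1 : W * θ₂ ∣ W * θ := mul_dvd_mul_left W d1
  have hQ2 : W * θ₂ ∣ W * y * θ' := by
    rw [mul_assoc]
    exact mul_dvd_mul_left W (d2.trans (Dvd.intro _ rfl))
  have hQ3 : W * θ₂ ∣ (W * y) * (W * y) := by
    have : (W * y) * (W * y) = W * (y * (W * y)) := by ring
    rw [this]
    exact mul_dvd_mul_left W (d2.trans (Dvd.intro _ rfl))
  obtain ⟨βoo, β0, s, hz⟩ := H.hdec z'
  have h1 : Rel Boo B0 (small A) (W * θ₂) (1 + algebraMap A B W * comb a τ)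
      (1 + algebraMap A B (W * y) * z') :=
    ((hrel.mono hQ1).symm.trans small_gcd ((H.hcycrel x c hc c' hc').of_zero _)).trans small_gcd
      (hrel'.mono hQ2)
  have h2 : Rel Boo B0 (small A) ((W * y) * (W * y)) (1 + algebraMap A B (W * y) * z')
      (1 + comb a ((W * y) • s)) := by
    rw [hz]
    exact rel_one_step hW (Dvd.intro _ rfl) βoo β0 s
  have h3 : Rel Boo B0 (small A) (W * θ₂) (1 + comb a (W • τ)) (1 + comb a ((W * y) • s)) := by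
    rw [map_smul, Algebra.smul_def]
    exact h1.trans small_gcd (h2.mono hQ3)
  obtain ⟨θ₄, hθ₄, δ'', hδ''⟩ := hsq θ₂ hθ₂
  have h4 := dvd_mul_sub_of_rel H.hrk H.hsat hW hθ₄ (mul_ne_zero hW.2 hθ₂.2)
    (t := W • τ) (t' := (W * y) • s) (fun i => Dvd.intro _ rfl)
    (fun i => (Dvd.intro y rfl).trans (Dvd.intro _ rfl)) h3 i0
  simp only [Pi.smul_apply, smul_eq_mul, hτ, mul_one] at h4
  -- `W θ₄ θ₄ δ'' ∣ θ₄ W (1 - y s)`
  have h5 : θ₄ ∣ 1 + y * (-s i0) := by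
    have h6 : (W * θ₄) * (θ₄ * δ'') ∣ (W * θ₄) * (1 + y * (-s i0)) := by
      have e1 : W * θ₂ = (W * θ₄) * (θ₄ * δ'') := by rw [hδ'']; ring
      have e2 : θ₄ * (W - W * y * s i0) = (W * θ₄) * (1 + y * (-s i0)) := by ring
      rw [← e1, ← e2]
      exact h4
    exact (Dvd.intro _ rfl).trans ((mul_dvd_mul_iff_left (mul_ne_zero hW.2 hθ₄.2)).mp h6)
  exact small_not_isUnit hθ₄ (isUnit_of_dvd_unit h5 (isUnit_one_add_mul hy _))

/-- raising to the `ℓ`-th power improves the precision of `Rel` -/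
theorem rel_pow_prime {sm : Set A} (hℓ : ℓ.Prime) {q Q : A} (h1 : Q ∣ (ℓ : A) * q)
    (h2 : Q ∣ q ^ ℓ) {u v : B} (h : Rel Boo B0 sm q u v) : Rel Boo B0 sm Q (u ^ ℓ) (v ^ ℓ) := by
  obtain ⟨ε, hε, r, r', s, s', k1, k2, k3, k4, ⟨e, he⟩⟩ := h
  have hp : ∀ {S : Type _} [CommRing S] {c x : S}, c ∣ x - 1 → c ∣ x ^ ℓ - 1 := by
    intro S _ c x hx
    have := sub_dvd_pow_sub_pow x 1 ℓ
    rw [one_pow] at this
    exact hx.trans this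
  refine ⟨ε, hε, r ^ ℓ, r' ^ ℓ, s ^ ℓ, s' ^ ℓ, hp k1, hp k2, hp k3, hp k4, ?_⟩
  obtain ⟨r₀, hr₀⟩ := exists_add_pow_prime_eq hℓ (v * r' * s') (algebraMap A B q * e)
  have h3 : u * r * s = v * r' * s' + algebraMap A B q * e := by rw [← he]; ring
  have h4 : u ^ ℓ * ((r ^ ℓ : Boo) : B) * ((s ^ ℓ : B0) : B)
      - v ^ ℓ * ((r' ^ ℓ : Boo) : B) * ((s' ^ ℓ : B0) : B)
      = algebraMap A B (q ^ ℓ) * e ^ ℓ
        + algebraMap A B ((ℓ : A) * q) * ((v * r' * s') * e * r₀) := by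
    have h5 : u ^ ℓ * ((r ^ ℓ : Boo) : B) * ((s ^ ℓ : B0) : B) = (u * r * s) ^ ℓ := by
      push_cast
      ring
    have h6 : v ^ ℓ * ((r' ^ ℓ : Boo) : B) * ((s' ^ ℓ : B0) : B) = (v * r' * s') ^ ℓ := by
      push_cast
      ring
    rw [h5, h6, h3, hr₀]
    simp only [map_mul, map_pow, map_natCast]
    ring
  rw [h4]
  exact dvd_add (Dvd.dvd.mul_right (map_dvd _ h2) _) (Dvd.dvd.mul_right (map_dvd _ h1) _)

/-- **(P+), the critical case** `ℓ = π₁ ^ (ℓ - 1) (-1 + π₁ y)`. -/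
theorem pow_prime_crit (hℓ : ℓ.Prime) {π₁ y : A} (hπ : (ℓ : A) = π₁ ^ (ℓ - 1) * (-1 + π₁ * y))
    (z : B) : ∃ z4 : B, (1 + algebraMap A B π₁ * z) ^ ℓ
      = 1 + algebraMap A B (π₁ ^ ℓ) * (z ^ ℓ - z + algebraMap A B π₁ * z4) := by
  obtain ⟨r, hr⟩ := exists_one_add_pow_prime hℓ (algebraMap A B π₁ * z)
  have hwl : π₁ ^ ℓ = π₁ ^ (ℓ - 1) * π₁ := by
    rw [← pow_succ]
    congr 1
    have := hℓ.pos
    omega
  have hB : (ℓ : B) = algebraMap A B (π₁ ^ (ℓ - 1)) * (-1 + algebraMap A B π₁ * algebraMap A B y) := by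
    rw [← map_natCast (algebraMap A B), hπ]
    simp only [map_mul, map_add, map_neg, map_one]
  have hwl' : (algebraMap A B π₁) ^ ℓ = algebraMap A B (π₁ ^ (ℓ - 1)) * algebraMap A B π₁ := by
    rw [← map_pow, hwl, map_mul]
  refine ⟨algebraMap A B y * z + (-1 + algebraMap A B π₁ * algebraMap A B y) * z ^ 2 * r, ?_⟩
  rw [hr, mul_pow (algebraMap A B π₁) z ℓ, hwl', hwl, map_mul]
  conv_lhs => rw [hB]
  ring

/-- **(AS), cocycle form.** -/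
theorem Core.exists_artinSchreier (H : Core Boo B0 a ℓ Cyc)
    (hsq : ∀ ε ∈ small A, ∃ θ ∈ small A, θ * θ ∣ ε) {π₁ y : A} (hπ₁ : π₁ ∈ small A)
    (hπ : (ℓ : A) = π₁ ^ (ℓ - 1) * (-1 + π₁ * y)) {x : X} (hx : ℓ • x = 0) {c : B}
    (hc : c ∈ Cyc x) {θ : A} (hθ : θ ∈ small A) {z : B}
    (hrel : Rel Boo B0 (small A) (π₁ * θ) c (1 + algebraMap A B π₁ * z)) :
    ∃ δ ∈ small A, ∃ (βoo : Boo) (β0 : B0), algebraMap A B δ ∣ z ^ ℓ - z - βoo - β0 := by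
  have hℓ0 : ℓ ≠ 0 := H.hℓ.ne_zero
  have hπℓ : π₁ ^ ℓ = π₁ ^ (ℓ - 1) * π₁ := by
    rw [← pow_succ]
    congr 1
    omega
  -- the `ℓ`-th power at precision `π₁ ^ ℓ θ`
  have hQ1 : π₁ ^ ℓ * θ ∣ (ℓ : A) * (π₁ * θ) := by
    rw [hπ, hπℓ]
    exact ⟨-1 + π₁ * y, by ring⟩
  have hQ2 : π₁ ^ ℓ * θ ∣ (π₁ * θ) ^ ℓ := by
    rw [mul_pow]
    exact mul_dvd_mul_left _ (dvd_pow_self θ hℓ0)
  have h1 : Rel Boo B0 (small A) (π₁ ^ ℓ * θ) (c ^ ℓ) ((1 + algebraMap A B π₁ * z) ^ ℓ) :=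
    rel_pow_prime H.hℓ hQ1 hQ2 hrel
  have hcℓ : c ^ ℓ ∈ Cyc 0 := by
    have := H.pow_mem hc ℓ
    rwa [hx] at this
  have h2 : Rel Boo B0 (small A) 0 (c ^ ℓ) 1 := H.hcycrel 0 _ hcℓ 1 H.hcyc0
  obtain ⟨z4, hz4⟩ := pow_prime_crit (B := B) H.hℓ hπ z
  obtain ⟨βoo, β0, s, hd⟩ := H.hdec (z ^ ℓ - z)
  obtain ⟨γoo, γ0, s', hd'⟩ := H.hdec z4
  have hP : π₁ ^ ℓ ∈ small A := small_pow hπ₁ hℓ0
  have h3 : Rel Boo B0 (small A) (π₁ ^ ℓ * π₁ ^ ℓ) ((1 + algebraMap A B π₁ * z) ^ ℓ)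
      (1 + comb a ((π₁ ^ ℓ) • (s + π₁ • s'))) := by
    rw [hz4]
    have e1 : z ^ ℓ - z + algebraMap A B π₁ * z4
        = ((βoo + π₁ • γoo : Boo) : B) + ((β0 + π₁ • γ0 : B0) : B) + comb a (s + π₁ • s') := by
      rw [hd, hd', map_add, map_smul]
      simp only [Subalgebra.coe_add, Algebra.smul_def, Subalgebra.coe_mul,
        Subalgebra.coe_algebraMap]
      ring
    rw [e1]
    exact rel_one_step hP dvd_rfl _ _ _
  obtain ⟨θ₂, hθ₂, d1, d2⟩ := small_gcd θ hθ (π₁ ^ ℓ) hP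
  have h4 : Rel Boo B0 (small A) (π₁ ^ ℓ * θ₂) (1 + comb a ((π₁ ^ ℓ) • (s + π₁ • s')))
      (1 + comb a (0 : Fin g → A)) := by
    rw [map_zero, add_zero]
    exact (h3.mono (mul_dvd_mul_left _ d2)).symm.trans small_gcd
      ((h1.mono (mul_dvd_mul_left _ d1)).symm.trans small_gcd (h2.of_zero _))
  obtain ⟨θ₃, hθ₃, δ'', hδ''⟩ := hsq θ₂ hθ₂
  have h5 := dvd_mul_sub_of_rel H.hrk H.hsat hP hθ₃ (mul_ne_zero hP.2 hθ₂.2)
    (t := (π₁ ^ ℓ) • (s + π₁ • s')) (t' := 0) (fun i => Dvd.intro _ rfl) (fun i => dvd_zero _) h4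
  obtain ⟨δ, hδ, e1, e2⟩ := small_gcd θ₃ hθ₃ π₁ hπ₁
  have hs : ∀ i, δ ∣ s i := by
    intro i
    have h6 := h5 i
    simp only [Pi.smul_apply, Pi.add_apply, smul_eq_mul, Pi.zero_apply, sub_zero] at h6
    have h7 : (π₁ ^ ℓ * θ₃) * (θ₃ * δ'') ∣ (π₁ ^ ℓ * θ₃) * (s i + π₁ * s' i) := by
      have e3 : π₁ ^ ℓ * θ₂ = (π₁ ^ ℓ * θ₃) * (θ₃ * δ'') := by rw [hδ'']; ring
      have e4 : θ₃ * (π₁ ^ ℓ * (s i + π₁ * s' i)) = (π₁ ^ ℓ * θ₃) * (s i + π₁ * s' i) := by ring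
      rw [← e3, ← e4]
      exact h6
    have h8 : θ₃ ∣ s i + π₁ * s' i :=
      (Dvd.intro _ rfl).trans ((mul_dvd_mul_iff_left (mul_ne_zero hP.2 hθ₃.2)).mp h7)
    have h9 := dvd_sub (e1.trans h8) (Dvd.dvd.mul_right e2 (s' i))
    rwa [add_sub_cancel_right] at h9
  refine ⟨δ, hδ, βoo, β0, ?_⟩
  obtain ⟨σ, -, hσ⟩ := comb_eq_of_dvd (a := a) hs
  have h10 : z ^ ℓ - z - βoo - β0 = algebraMap A B δ * comb a σ := by
    rw [hd, ← hσ]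
    ring
  rw [h10]
  exact Dvd.intro _ rfl

variable {Bt : Type*} [CommRing Bt] {res : B →+* Bt} {Btoo Bt0 : Subring Bt}

/-- **(AS), reduction form**: the Artin-Schreier decomposition of a toric class at the critical
depth.  `hAS`: the Artin-Schreier map is onto on the constants `Btoo ∩ Bt0 = k × k`. -/
theorem Red.exists_artinSchreier (R : Red Boo B0 res Btoo Bt0 ℓ) (hℓ : ℓ.Prime)
    (hAS : ∀ y ∈ Btoo, y ∈ Bt0 → ∃ y' ∈ Btoo, y' ∈ Bt0 ∧ y' ^ ℓ - y' = y) {z : B} {foo f0 : Bt}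
    (hfoo : foo ∈ Btoo) (hf0 : f0 ∈ Bt0) (hz : res z = foo + f0) {βoo : Boo} {β0 : B0}
    (hF : (res z) ^ ℓ - res z = res βoo + res β0) :
    ∃ yoo ∈ Btoo, ∃ y0 ∈ Bt0, res z = yoo + y0 ∧ yoo ^ ℓ - yoo = res βoo ∧
      y0 ^ ℓ - y0 = res β0 := by
  rw [hz, R.add_pow hℓ] at hF
  have h1 : foo ^ ℓ - foo - res βoo = res β0 - (f0 ^ ℓ - f0) := by linear_combination hF
  have h2 : foo ^ ℓ - foo - res βoo ∈ Btoo :=
    Btoo.sub_mem (Btoo.sub_mem (Btoo.pow_mem hfoo ℓ) hfoo) (R.hoo _ βoo.2)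
  have h3 : foo ^ ℓ - foo - res βoo ∈ Bt0 := by
    rw [h1]
    exact Bt0.sub_mem (R.h0 _ β0.2) (Bt0.sub_mem (Bt0.pow_mem hf0 ℓ) hf0)
  obtain ⟨γ, hγoo, hγ0, hγ⟩ := hAS _ h2 h3
  refine ⟨foo - γ, Btoo.sub_mem hfoo hγoo, f0 + γ, Bt0.add_mem hf0 hγ0, ?_, ?_, ?_⟩
  · rw [hz]
    ring
  · rw [R.sub_pow hℓ]
    linear_combination -hγ
  · rw [R.add_pow hℓ]
    linear_combination hγ + h1

end Fermat.Agent.S40x.Depth
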