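/-
P-S44/S40 (block C4'' + C3-AS toolbox, helper57): the abstract DEPTH CALCULUS on Cech cocycles.

`Unit`: uniqueness of the COBOUNDARY DECOMPOSITION (the `H⁰ = A` part of N2, which the landed
`Cech.normalForm_unique` proves but does not export).

* `normalForm_unique_unit`: N2 with the constant `υ` exported: `woo ≡ υ voo`, `υ w0 ≡ v0`;
* `exists_unit_of_dvd` (U''): the same for an ARBITRARY modulus `Q`, with a loss smaller than every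
  small `θ`;
* `exists_unit_decomp` (E2, abstract): if `c ~ 1 + π₁ z` and `c ^ ℓ = boo * b0` EXACTLY (the
  Kummer function), then `z ^ ℓ - z = βoo + β0 + (small)` and
  `boo ρ ^ ℓ ≡ υ (1 + π₁ ^ ℓ βoo) ρ' ^ ℓ` modulo `π₁ ^ ℓ θ'`: the chart part of the Kummer function
  is, up to `ℓ`-th powers of near-one chart units and a constant, `1 + π₁ ^ ℓ βoo`.
-/
import Fermat.Agent.S40x.Depth.Crit

set_option autoImplicit false
set_option linter.unusedSectionVars false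
set_option linter.overlappingInstances false

namespace Fermat.Agent.S40x.Depth

open IsLocalRing Fermat.Agent.S33x.Cech Fermat.Agent.S33x.Cech.Coord

section General

variable {A : Type*} [CommRing A] {B : Type*} [CommRing B] [Algebra A B]
variable {Boo B0 : Subalgebra A B} {g : ℕ} {a : Fin g → B}

/-- (N2) with the constant exported. -/
theorem normalForm_unique_unit {π : A} (H : SatData Boo B0 a π) (n : ℕ) {t t' : Fin g → A}
    (ht : ∀ i, π ∣ t i) (ht' : ∀ i, π ∣ t' i) {voo woo : Boo} {v0 w0 : B0}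
    (hvoo : algebraMap A Boo π ∣ voo - 1) (hwoo : algebraMap A Boo π ∣ woo - 1)
    (hv0 : algebraMap A B0 π ∣ v0 - 1) (hw0 : algebraMap A B0 π ∣ w0 - 1)
    (h : algebraMap A B π ^ (n + 1) ∣
      (1 + comb a t) * woo * w0 - (1 + comb a t') * voo * v0) :
    (∀ i, π ^ (n + 1) ∣ t i - t' i) ∧ ∃ υ : A, π ∣ υ - 1 ∧
      algebraMap A Boo π ^ (n + 1) ∣ woo - υ • voo ∧
      algebraMap A B0 π ^ (n + 1) ∣ υ • w0 - v0 := by
  have key : ∀ j : ℕ, j + 1 ≤ n + 1 → (∀ i, π ^ (j + 1) ∣ t i - t' i) ∧ ∃ υ : A, π ∣ υ - 1 ∧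
      algebraMap A Boo π ^ (j + 1) ∣ woo - υ • voo ∧
      algebraMap A B0 π ^ (j + 1) ∣ υ • w0 - v0 := by
    intro j
    induction j with
    | zero =>
      intro _
      refine ⟨fun i => ?_, 1, by simp, ?_, ?_⟩
      · rw [zero_add, pow_one]
        exact dvd_sub (ht i) (ht' i)
      · rw [zero_add, pow_one, one_smul]
        have : woo - voo = (woo - 1) - (voo - 1) := by ring
        rw [this]
        exact dvd_sub hwoo hvoo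
      · rw [zero_add, pow_one, one_smul]
        have : w0 - v0 = (w0 - 1) - (v0 - 1) := by ring
        rw [this]
        exact dvd_sub hw0 hv0
    | succ j ih =>
      intro hj
      obtain ⟨hd, υ, hυ, h1, h2⟩ := ih (by omega)
      obtain ⟨m, hm⟩ : ∃ m, n + 1 = j + 1 + 1 + m := ⟨n + 1 - (j + 1 + 1), by omega⟩
      rw [hm] at h
      exact unique_step H ht' hvoo hw0 hv0 h hd υ hυ h1 h2
  exact key n le_rfl

end General

section Sharp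

variable {A : Type*} [CommRing A] [IsDomain A] [ValuationRing A] [IsLocalRing A]
variable {B : Type*} [CommRing B] [Algebra A B]
variable {Boo B0 : Subalgebra A B} {g : ℕ} {a : Fin g → B}

/-- **(U'')** sharp uniqueness of the coboundary decomposition for an arbitrary modulus `Q`. -/
theorem exists_unit_of_dvd
    (hrk : ∀ x ∈ maximalIdeal A, ∀ c : A, c ≠ 0 → ∃ j : ℕ, c ∣ x ^ j)
    (hsat : ∀ ε ∈ small A, SatData Boo B0 a ε) {ϖ θ ε Q : A} (hϖ : ϖ ∈ small A)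
    (hθ : θ ∈ small A) (hε : ε ∈ small A) (hQ : Q ≠ 0) (hQm : Q ∈ maximalIdeal A)
    {t t' : Fin g → A} (ht : ∀ i, ϖ ∣ t i) (ht' : ∀ i, ϖ ∣ t' i) {voo woo : Boo} {v0 w0 : B0}
    (hvoo : algebraMap A Boo ε ∣ voo - 1) (hwoo : algebraMap A Boo ε ∣ woo - 1)
    (hv0 : algebraMap A B0 ε ∣ v0 - 1) (hw0 : algebraMap A B0 ε ∣ w0 - 1)
    (h : algebraMap A B Q ∣ (1 + comb a t) * woo * w0 - (1 + comb a t') * voo * v0) :
    ∃ Q' : A, Q ∣ θ * Q' ∧ (∀ i, Q' ∣ t i - t' i) ∧ ∃ υ : A, (∃ ε' ∈ small A, ε' ∣ υ - 1) ∧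
      algebraMap A Boo Q' ∣ woo - υ • voo ∧ algebraMap A B0 Q' ∣ υ • w0 - v0 := by
  classical
  obtain ⟨δ₁, hδ₁, e1, e2⟩ := small_gcd ε hε ϖ hϖ
  obtain ⟨δ, hδ, f1, f2⟩ := small_gcd δ₁ hδ₁ θ hθ
  have d1 : δ ∣ ϖ := f1.trans e2
  have d2 : δ ∣ ε := f1.trans e1
  have hex : ∃ j : ℕ, Q ∣ δ ^ j := hrk δ hδ.1 Q hQ
  have hfind := Nat.find_spec hex
  have hfmin : ∀ m, m < Nat.find hex → ¬ Q ∣ δ ^ m := fun m hm => Nat.find_min hex hm
  generalize Nat.find hex = N at hfind hfmin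
  match N, hfind, hfmin with
  | 0, hfind, _ =>
    -- `Q` is a unit: impossible
    rw [pow_zero] at hfind
    exact absurd (isUnit_of_dvd_one hfind) ((IsLocalRing.mem_maximalIdeal Q).mp hQm)
  | 1, hfind, _ =>
    -- `Q ∣ δ`: take `Q' = 1`
    rw [pow_one] at hfind
    exact ⟨1, by rw [mul_one]; exact hfind.trans f2, fun i => one_dvd _, 1, ⟨δ, hδ, by simp⟩,
      by simp, by simp⟩
  | n + 2, hfind, hfmin =>
    have hk' : δ ^ (n + 1) ∣ Q := (tot _ _).resolve_left (hfmin (n + 1) (by omega))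
    have h6 : algebraMap A B δ ^ (n + 1) ∣
        (1 + comb a t) * woo * w0 - (1 + comb a t') * voo * v0 := by
      rw [← map_pow]
      exact algebraMap_dvd_of_dvd hk' h
    obtain ⟨h7, υ, hυ, h9, h10⟩ := normalForm_unique_unit (hsat δ hδ) n
      (fun i => d1.trans (ht i)) (fun i => d1.trans (ht' i)) (algebraMap_dvd_of_dvd d2 hvoo)
      (algebraMap_dvd_of_dvd d2 hwoo) (algebraMap_dvd_of_dvd d2 hv0)
      (algebraMap_dvd_of_dvd d2 hw0) h6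
    have h8 : Q ∣ δ * δ ^ (n + 1) := by
      have : δ * δ ^ (n + 1) = δ ^ (n + 2) := by ring
      rw [this]
      exact hfind
    refine ⟨δ ^ (n + 1), h8.trans (mul_dvd_mul_right f2 _), h7, υ, ⟨δ, hδ, hυ⟩, ?_, ?_⟩
    · rw [map_pow]; exact h9
    · rw [map_pow]; exact h10

end Sharp

section E2

variable {A : Type*} [CommRing A] [IsDomain A] [ValuationRing A] [IsLocalRing A]
variable {B : Type*} [CommRing B] [Algebra A B]
variable {Boo B0 : Subalgebra A B} {g : ℕ} {a : Fin g → B} {ℓ : ℕ}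

/-- **(E2), abstract form.**  `c ~ 1 + π₁ z` modulo `π₁ θ` and `c ^ ℓ = boo * b0` exactly (`boo`,
`b0` near-one chart units: the two chart parts of the Kummer function).  Then
`z ^ ℓ - z = βoo + β0` modulo a small `δ`, and `boo`, `b0` are, up to `ℓ`-th powers of near-one
chart units and a near-one constant `υ`, equal to `1 + π₁ ^ ℓ βoo`, `(1 + π₁ ^ ℓ β0)⁻¹` modulo
`π₁ ^ ℓ θ'`. -/
theorem exists_unit_decomp
    (hrk : ∀ x ∈ maximalIdeal A, ∀ c : A, c ≠ 0 → ∃ j : ℕ, c ∣ x ^ j)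
    (hdec : Decomp Boo B0 a) (hsat : ∀ ε ∈ small A, SatData Boo B0 a ε) (hℓ : ℓ.Prime)
    (hsq : ∀ ε ∈ small A, ∃ θ ∈ small A, θ * θ ∣ ε) {π₁ y : A} (hπ₁ : π₁ ∈ small A)
    (hπ : (ℓ : A) = π₁ ^ (ℓ - 1) * (-1 + π₁ * y)) {θ : A} (hθ : θ ∈ small A) {c z : B}
    (hrel : Rel Boo B0 (small A) (π₁ * θ) c (1 + algebraMap A B π₁ * z))
    {boo : Boo} {b0 : B0} {ε₀ : A} (hε₀ : ε₀ ∈ small A)
    (hboo : algebraMap A Boo ε₀ ∣ boo - 1) (hb0 : algebraMap A B0 ε₀ ∣ b0 - 1)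
    (hc' : c ^ ℓ = boo * b0) :
    ∃ (βoo : Boo) (β0 : B0), (∃ δ ∈ small A, algebraMap A B δ ∣ z ^ ℓ - z - βoo - β0) ∧
      ∃ (υ θ' ε' : A) (ρ ρ' : Boo) (σ σ' : B0), θ' ∈ small A ∧ ε' ∈ small A ∧ ε' ∣ υ - 1 ∧
        algebraMap A Boo ε' ∣ ρ - 1 ∧ algebraMap A Boo ε' ∣ ρ' - 1 ∧
        algebraMap A B0 ε' ∣ σ - 1 ∧ algebraMap A B0 ε' ∣ σ' - 1 ∧
        algebraMap A Boo (π₁ ^ ℓ * θ') ∣
          boo * ρ ^ ℓ - υ • ((1 + algebraMap A Boo (π₁ ^ ℓ) * βoo) * ρ' ^ ℓ) ∧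
        algebraMap A B0 (π₁ ^ ℓ * θ') ∣
          υ • (b0 * σ ^ ℓ) - (1 + algebraMap A B0 (π₁ ^ ℓ) * β0) * σ' ^ ℓ := by
  have hℓ0 : ℓ ≠ 0 := hℓ.ne_zero
  obtain ⟨ε, hε, r, r', s, s', k1, k2, k3, k4, ⟨e, he⟩⟩ := hrel
  obtain ⟨z4, hz4⟩ := pow_prime_crit (B := B) hℓ hπ z
  obtain ⟨βoo, β0, s₁, hd⟩ := hdec (z ^ ℓ - z + algebraMap A B π₁ * z4)
  have hP : π₁ ^ ℓ ∈ small A := small_pow hπ₁ hℓ0
  have hπℓ : π₁ ^ ℓ = π₁ ^ (ℓ - 1) * π₁ := by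
    rw [← pow_succ]
    congr 1
    omega
  obtain ⟨θ₂, hθ₂, d1, d2⟩ := small_gcd θ hθ (π₁ ^ ℓ) hP
  obtain ⟨θ₄, hθ₄, δ'', hδ''⟩ := hsq θ₂ hθ₂
  -- the `ℓ`-th power of the relation
  obtain ⟨r₀, hr₀⟩ := exists_add_pow_prime_eq hℓ ((1 + algebraMap A B π₁ * z) * r' * s')
    (algebraMap A B (π₁ * θ) * e)
  have hU : (c * r * s) ^ ℓ = (boo : B) * b0 * (r : B) ^ ℓ * (s : B) ^ ℓ := by
    rw [mul_pow, mul_pow, hc']
  have hX : ((1 + algebraMap A B π₁ * z) * r' * s') ^ ℓ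
      = (1 + algebraMap A B (π₁ ^ ℓ) * ((βoo : B) + β0 + comb a s₁)) * (r' : B) ^ ℓ
        * (s' : B) ^ ℓ := by
    rw [mul_pow, mul_pow, hz4, hd]
  have hUX : (c * r * s) ^ ℓ - ((1 + algebraMap A B π₁ * z) * r' * s') ^ ℓ
      = algebraMap A B ((π₁ * θ) ^ ℓ) * e ^ ℓ
        + algebraMap A B ((ℓ : A) * (π₁ * θ)) * (((1 + algebraMap A B π₁ * z) * r' * s') * e * r₀) := by
    have h3 : c * r * s = (1 + algebraMap A B π₁ * z) * r' * s' + algebraMap A B (π₁ * θ) * e := by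
      rw [← he]
      ring
    rw [h3, hr₀]
    simp only [map_mul, map_pow, map_natCast]
    ring
  have hQ1 : π₁ ^ ℓ * θ₂ ∣ (π₁ * θ) ^ ℓ := by
    rw [mul_pow]
    exact mul_dvd_mul_left _ (d1.trans (dvd_pow_self θ hℓ0))
  have hQ2 : π₁ ^ ℓ * θ₂ ∣ (ℓ : A) * (π₁ * θ) := by
    have : (ℓ : A) * (π₁ * θ) = π₁ ^ ℓ * (θ * (-1 + π₁ * y)) := by
      rw [hπ, hπℓ]
      ring
    rw [this]
    exact mul_dvd_mul_left _ (d1.trans (Dvd.intro _ rfl))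
  have hQ3 : π₁ ^ ℓ * θ₂ ∣ π₁ ^ ℓ * π₁ ^ ℓ := mul_dvd_mul_left _ d2
  have hmain : algebraMap A B (π₁ ^ ℓ * θ₂) ∣
      (1 + comb a (0 : Fin g → A)) * ((boo * r ^ ℓ : Boo) : B) * ((b0 * s ^ ℓ : B0) : B)
      - (1 + comb a ((π₁ ^ ℓ) • s₁))
        * (((1 + algebraMap A Boo (π₁ ^ ℓ) * βoo) * r' ^ ℓ : Boo) : B)
        * (((1 + algebraMap A B0 (π₁ ^ ℓ) * β0) * s' ^ ℓ : B0) : B) := by
    have hT : (1 + comb a (0 : Fin g → A)) * ((boo * r ^ ℓ : Boo) : B) * ((b0 * s ^ ℓ : B0) : B)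
        - (1 + comb a ((π₁ ^ ℓ) • s₁))
          * (((1 + algebraMap A Boo (π₁ ^ ℓ) * βoo) * r' ^ ℓ : Boo) : B)
          * (((1 + algebraMap A B0 (π₁ ^ ℓ) * β0) * s' ^ ℓ : B0) : B)
        = ((c * r * s) ^ ℓ - ((1 + algebraMap A B π₁ * z) * r' * s') ^ ℓ)
          - algebraMap A B (π₁ ^ ℓ * π₁ ^ ℓ) * (((βoo : B) * β0 + comb a s₁ * ((βoo : B) + β0)
            + algebraMap A B (π₁ ^ ℓ) * comb a s₁ * βoo * β0) * (r' : B) ^ ℓ * (s' : B) ^ ℓ) := by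
      rw [map_zero, add_zero, map_smul, Algebra.smul_def, hU, hX]
      push_cast
      ring
    rw [hT, hUX]
    refine dvd_sub (dvd_add ?_ ?_) ?_
    · exact Dvd.dvd.mul_right (map_dvd _ hQ1) _
    · exact Dvd.dvd.mul_right (map_dvd _ hQ2) _
    · exact Dvd.dvd.mul_right (map_dvd _ hQ3) _
  -- near-one
  obtain ⟨ε₁, hε₁, g1, g2⟩ := small_gcd ε hε ε₀ hε₀
  obtain ⟨ε₃, hε₃, g3, g4⟩ := small_gcd ε₁ hε₁ (π₁ ^ ℓ) hP
  have hp : ∀ {S : Type _} [CommRing S] {c x : S}, c ∣ x - 1 → c ∣ x ^ ℓ - 1 := by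
    intro S _ c x hx
    have := sub_dvd_pow_sub_pow x 1 ℓ
    rw [one_pow] at this
    exact hx.trans this
  have hm : ∀ {S : Type _} [CommRing S] {c x y : S}, c ∣ x - 1 → c ∣ y - 1 → c ∣ x * y - 1 := by
    intro S _ c x y hx hy
    have : x * y - 1 = (x - 1) * y + (y - 1) := by ring
    rw [this]
    exact dvd_add (Dvd.dvd.mul_right hx y) hy
  have n1 : algebraMap A Boo ε₃ ∣ boo * r ^ ℓ - 1 :=
    hm (algebraMap_dvd_of_dvd (g3.trans g2) hboo) (hp (algebraMap_dvd_of_dvd (g3.trans g1) k1))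
  have n2 : algebraMap A Boo ε₃ ∣ (1 + algebraMap A Boo (π₁ ^ ℓ) * βoo) * r' ^ ℓ - 1 := by
    refine hm ?_ (hp (algebraMap_dvd_of_dvd (g3.trans g1) k2))
    rw [add_sub_cancel_left]
    exact Dvd.dvd.mul_right (map_dvd _ g4) _
  have n3 : algebraMap A B0 ε₃ ∣ b0 * s ^ ℓ - 1 :=
    hm (algebraMap_dvd_of_dvd (g3.trans g2) hb0) (hp (algebraMap_dvd_of_dvd (g3.trans g1) k3))
  have n4 : algebraMap A B0 ε₃ ∣ (1 + algebraMap A B0 (π₁ ^ ℓ) * β0) * s' ^ ℓ - 1 := by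
    refine hm ?_ (hp (algebraMap_dvd_of_dvd (g3.trans g1) k4))
    rw [add_sub_cancel_left]
    exact Dvd.dvd.mul_right (map_dvd _ g4) _
  have hQ0 : π₁ ^ ℓ * θ₂ ≠ 0 := mul_ne_zero hP.2 hθ₂.2
  obtain ⟨Q', hQ', hco, υ, ⟨ε', hε', hυ⟩, hoo, h0⟩ := exists_unit_of_dvd hrk hsat hP hθ₄ hε₃ hQ0
    (small_mul hP hθ₂).1 (t := 0) (t' := (π₁ ^ ℓ) • s₁) (fun i => dvd_zero _)
    (fun i => Dvd.intro _ rfl) n2 n1 n4 n3 hmain
  -- `π₁ ^ ℓ θ₄ ∣ Q'`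
  have hPQ : π₁ ^ ℓ * θ₄ ∣ Q' := by
    have h1 : θ₄ * (π₁ ^ ℓ * θ₄ * δ'') ∣ θ₄ * Q' := by
      have : θ₄ * (π₁ ^ ℓ * θ₄ * δ'') = π₁ ^ ℓ * θ₂ := by rw [hδ'']; ring
      rw [this]
      exact hQ'
    exact (Dvd.intro _ rfl).trans ((mul_dvd_mul_iff_left hθ₄.2).mp h1)
  refine ⟨βoo, β0, ?_, υ, θ₄, ?_⟩
  · -- Artin-Schreier
    obtain ⟨δ, hδ, e1, e2⟩ := small_gcd θ₄ hθ₄ π₁ hπ₁
    have hs : ∀ i, δ ∣ s₁ i := by
      intro i
      have h1 := hPQ.trans (hco i)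
      simp only [Pi.zero_apply, Pi.smul_apply, smul_eq_mul, zero_sub, dvd_neg] at h1
      exact e1.trans ((mul_dvd_mul_iff_left hP.2).mp h1)
    obtain ⟨σ₁, -, hσ₁⟩ := comb_eq_of_dvd (a := a) hs
    obtain ⟨π', hπ'⟩ := e2
    refine ⟨δ, hδ, comb a σ₁ - algebraMap A B π' * z4, ?_⟩
    have : z ^ ℓ - z - βoo - β0 = comb a s₁ - algebraMap A B π₁ * z4 := by
      linear_combination hd
    rw [this, hσ₁, hπ', map_mul]
    ring
  · obtain ⟨ε₅, hε₅, g5, g6⟩ := small_gcd ε' hε' ε hε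
    refine ⟨ε₅, r, r', s, s', hθ₄, hε₅, g5.trans hυ, algebraMap_dvd_of_dvd g6 k1,
      algebraMap_dvd_of_dvd g6 k2, algebraMap_dvd_of_dvd g6 k3, algebraMap_dvd_of_dvd g6 k4,
      algebraMap_dvd_of_dvd hPQ hoo, algebraMap_dvd_of_dvd hPQ h0⟩

end E2

end Fermat.Agent.S40x.Depth
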